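import Fermat.Agent.LP.Top.ESide
import Fermat.Agent.LP.Iface

/-!
# LP-TOP (C): a point of order `p` with integral `x`-coordinate
-/

set_option autoImplicit false

noncomputable section

namespace Fermat.Agent.LP.Top

open WeierstrassCurve WeierstrassCurve.Affine WeierstrassCurve.Affine.Point
open Fermat.Agent.GR Fermat.Agent.S05 Fermat.Agent.S13 Fermat.Agent.LP.Frey

variable {P : FreyPackage} {A : ValuationSubring Qbar}

/-- Otherwise every `x ≠ 0` of `E[p]` has `xc x ∉ A`; with `P₁` of `Frey.exists_e1 N hA`, `Frey.e1_cyclic N h0 hp hx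
(tors_nsmul P x) _` gives `x = k • P₁`, and `k` may be reduced modulo `p`: `Fin p → E[p]`, `k ↦ k • P₁` is onto
(`⟨k • P₁, (mem_tors_iff P _).mpr _⟩`), so `p ^ 2 = Nat.card E[p] ≤ p` (`Nat.card_le_card_of_surjective`). -/
theorem exists_integral (N : NodeData P A) (hA : A.LiesOverPrime P.p)
    (hcard : Nat.card (Gal.Tor P.freyCurve P.p) = P.p ^ 2) :
    ∃ c2 : Gal.Tor P.freyCurve P.p, (c2 : Pt P) ≠ 0 ∧ xc (c2 : Pt P) ∈ A := by
  by_contra hcon
  push Not at hcon
  obtain ⟨P₁, h0, hp, hx⟩ := exists_e1 N hA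
  have hp0 : 0 < P.p := P.pp.pos
  have hmem : ∀ k : ℕ, k • P₁ ∈ Submodule.torsionBy ℤ (P.freyCurve⁄Kb).Point P.p := by
    intro k
    rw [mem_tors_iff, smul_comm, hp, nsmul_zero]
  let f : Fin P.p → Gal.Tor P.freyCurve P.p := fun k => ⟨(k : ℕ) • P₁, hmem k⟩
  have hsurj : Function.Surjective f := by
    intro x
    have hxp : P.p • (x : Pt P) = 0 := (mem_tors_iff P _).1 x.2
    obtain ⟨k, hk⟩ : ∃ k : ℕ, (x : Pt P) = k • P₁ := by
      by_cases hx0 : (x : Pt P) = 0
      · exact ⟨0, by rw [hx0, zero_nsmul]⟩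
      · exact e1_cyclic N h0 hp hx hxp (hcon x hx0)
    refine ⟨⟨k % P.p, Nat.mod_lt _ hp0⟩, Subtype.ext ?_⟩
    show (k % P.p) • P₁ = (x : Pt P)
    rw [hk]
    conv_rhs => rw [← Nat.div_add_mod k P.p]
    rw [add_nsmul, mul_nsmul, hp, nsmul_zero, zero_add]
  have h1 := Nat.card_le_card_of_surjective f hsurj
  rw [hcard, Nat.card_eq_fintype_card, Fintype.card_fin] at h1
  have h2 : P.p < P.p ^ 2 := by
    have := P.hp5
    nlinarith
  omega

end Fermat.Agent.LP.Top
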