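import Fermat.Agent.LP.Frey.Final

/-!
# LP-TOP (E): the structure of `E[p]` as a module over the inertia group at `p ∣ abc`

* `exists_inertia_smul_ne` : the inertia group acts non trivially on `E[p]`
  (a point of `E[p] ∩ E₁` has `-2 v(p)/(p-1) ≤ v(x) < 0`, which is not in `ℤ v(p)`);
* `mem_iff_e1` : a subgroup `T` containing `(σ - 1) E[p]` (`σ` in the inertia group) and on which the
  inertia group acts through the cyclotomic character meets `E[p]` in the line `E[p] ∩ E₁`.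
-/

set_option autoImplicit false

namespace Fermat.Agent.LP.Top

open WeierstrassCurve WeierstrassCurve.Affine WeierstrassCurve.Affine.Point
open Fermat.Agent.S05 Fermat.Agent.S13 Fermat.Agent.LP.Frey

variable {P : FreyPackage} {A : ValuationSubring Kb}

/-- value group computation -/
lemma ESide_ineq {Γ : Type*} [LinearOrderedCommGroupWithZero Γ] {t x : Γ} {n : ℕ} {m : ℤ}
    (ht0 : t ≠ 0) (ht1 : t < 1) (hx : 1 < x) (hxm : x = t ^ m) (hn : 2 ≤ n) (h : t * x ^ n ≤ 1) :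
    False := by
  have htpos : 0 < t := zero_lt_iff.mpr ht0
  have hm : m ≤ -1 := by
    by_contra hm
    have hm0 : 0 ≤ m := by omega
    obtain ⟨k, rfl⟩ := Int.eq_ofNat_of_zero_le hm0
    rw [zpow_natCast] at hxm
    exact absurd hx (not_lt.mpr (hxm ▸ pow_le_one₀ zero_le ht1.le))
  have hinv : 1 < t⁻¹ := (one_lt_inv₀ htpos).mpr ht1
  have hx' : t⁻¹ ≤ x := by
    obtain ⟨k, hk⟩ : ∃ k : ℕ, m = -((k : ℤ) + 1) := ⟨(-m - 1).toNat, by omega⟩
    rw [hxm, hk, zpow_neg, ← inv_zpow, ← Nat.cast_succ, zpow_natCast, pow_succ]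
    exact le_mul_of_one_le_left' (one_le_pow₀ hinv.le)
  obtain ⟨n', rfl⟩ : ∃ n', n = n' + 2 := ⟨n - 2, by omega⟩
  have h1 : t * (t⁻¹) ^ (n' + 2) ≤ 1 :=
    (mul_le_mul_right (pow_le_pow_left₀ zero_le hx' _) t).trans h
  have h2 : t * (t⁻¹) ^ (n' + 2) = (t⁻¹) ^ (n' + 1) := by
    rw [pow_succ (t⁻¹) (n' + 1), mul_comm, mul_assoc, inv_mul_cancel₀ ht0, mul_one]
  rw [h2] at h1
  exact absurd (one_lt_pow₀ hinv (Nat.succ_ne_zero n')) (not_lt.mpr h1)

/-- the inertia group at `A ∣ p` acts non trivially on `E[p]` -/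
theorem exists_inertia_smul_ne (N : NodeData P A) (hA : A.LiesOverPrime P.p) :
    ∃ σ ∈ A.inertiaSubgroupIn ℚ, ∃ Q : Pt P, P.p • Q = 0 ∧ σ • Q ≠ Q := by
  by_contra hcon
  push Not at hcon
  obtain ⟨P₁, h0, hp, hx⟩ := exists_e1 N hA
  obtain ⟨k, hk, hsh⟩ := exists_shallow h0 hp hx
  have hS0 : k • P₁ ≠ 0 := nsmul_ne_zero_of_not_dvd P.pp h0 hp hk
  have hSx : xc (k • P₁) ∉ A := (rp_nsmul P A (Or.inr hx) k).resolve_left hS0
  have hSp : P.p • (k • P₁) = 0 := by rw [← mul_nsmul', mul_comm, mul_nsmul', hp, nsmul_zero]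
  have hx0 : xc (k • P₁) ≠ 0 := fun h => hSx (h ▸ A.zero_mem)
  obtain ⟨m, hm⟩ := val_eq_zpow_of_inertia_fixed P.pp A hA (xc (k • P₁)) hx0
    (fun σ hσ => by rw [← xc_smul, hcon σ hσ _ hSp])
  have ht0 : A.valuation (P.p : Kb) ≠ 0 := by
    rw [ne_eq, map_eq_zero]; exact_mod_cast P.pp.ne_zero
  have ht1 : A.valuation (P.p : Kb) < 1 := (A.mem_nonunits_iff).mp hA
  have hx1 : 1 < A.valuation (xc (k • P₁)) := by
    rw [← not_le, A.valuation_le_one_iff]; exact hSx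
  exact ESide_ineq ht0 ht1 hx1 hm (by have := P.hp5; omega) hsh

/-- **the deep line.**  `T` = the set of points whose Kummer class is trivial at `A`. -/
theorem mem_iff_e1 (N : NodeData P A) (hA : A.LiesOverPrime P.p) {ζ : Kb}
    (hζ : IsPrimitiveRoot ζ P.p) (T : AddSubgroup (Pt P))
    (hT1 : ∀ σ ∈ A.inertiaSubgroupIn ℚ, ∀ Q : Pt P, P.p • Q = 0 → σ • Q - Q ∈ T)
    (hT2 : ∀ Q ∈ T, P.p • Q = 0 → ∀ τ ∈ A.inertiaSubgroupIn ℚ, ∀ c : ℕ, τ ζ = ζ ^ c →
      τ • Q = c • Q) {Q : Pt P} (hQ : P.p • Q = 0) :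
    Q ∈ T ↔ (Q = 0 ∨ xc Q ∉ A) := by
  obtain ⟨P₁, h0, hp, hx⟩ := exists_e1 N hA
  obtain ⟨σ₀, hσ₀, Q₀, hQ₀, hne⟩ := exists_inertia_smul_ne N hA
  -- `P₁ ∈ T`
  have hP₁T : P₁ ∈ T := by
    have hR0 : σ₀ • Q₀ - Q₀ ≠ 0 := sub_ne_zero.mpr hne
    have hRx := (inertia_sub_mem_E1 N hA hσ₀ hQ₀).resolve_left hR0
    have hRp : P.p • (σ₀ • Q₀ - Q₀) = 0 := by
      rw [nsmul_sub, nsmul_smul_eq_zero σ₀ hQ₀, hQ₀, sub_zero]
    obtain ⟨k, hk⟩ := e1_cyclic N hR0 hRp hRx hp hx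
    rw [hk]
    exact T.nsmul_mem (hT1 σ₀ hσ₀ Q₀ hQ₀) k
  constructor
  · intro hQT
    by_contra hcon
    push Not at hcon
    obtain ⟨hQ0, hQx⟩ := hcon
    have hind : ∀ k : ℕ, Q ≠ k • P₁ := by
      intro k hk
      rcases rp_nsmul P A (Or.inr hx) k with h | h
      · exact hQ0 (hk.trans h)
      · exact h (hk ▸ hQx)
    -- all of `E[p]` lies in `T`
    have hall : ∀ R : Pt P, P.p • R = 0 → R ∈ T := by
      intro R hR
      obtain ⟨i, j, hij⟩ := exists_eq_add_of_indep hp hQ hind h0 hR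
      rw [hij]
      exact T.add_mem (T.nsmul_mem hP₁T i) (T.nsmul_mem hQT j)
    -- every element of the inertia group acts trivially
    apply hne
    have : NeZero P.p := ⟨P.pp.ne_zero⟩
    have hζσ : (σ₀ ζ) ^ P.p = 1 := by rw [← map_pow, hζ.pow_eq_one, map_one]
    obtain ⟨c, hcp, hc⟩ := hζ.eq_pow_of_pow_eq_one hζσ
    have hc0 : c ≠ 0 := by
      rintro rfl
      rw [pow_zero] at hc
      have h1 : σ₀ ζ = σ₀ 1 := by rw [← hc, map_one]
      exact hζ.ne_one P.pp.one_lt (σ₀.injective h1)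
    have hQc := hT2 Q hQT hQ σ₀ hσ₀ c hc.symm
    have hc1 : c = 1 := by
      by_contra hc1
      obtain ⟨d, rfl⟩ : ∃ d, c = d + 1 := ⟨c - 1, by omega⟩
      have hd : ¬ P.p ∣ d := Nat.not_dvd_of_pos_of_lt (by omega) (by omega)
      have hdQ : σ₀ • Q - Q = d • Q := by rw [hQc, succ_nsmul]; abel
      have hdQ0 : d • Q ≠ 0 := nsmul_ne_zero_of_not_dvd P.pp hQ0 hQ hd
      have hdx : xc (d • Q) ∉ A := by
        have := (inertia_sub_mem_E1 N hA hσ₀ hQ)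
        rw [hdQ] at this
        exact this.resolve_left hdQ0
      have hdp : P.p • (d • Q) = 0 := by rw [← mul_nsmul', mul_comm, mul_nsmul', hQ, nsmul_zero]
      -- `Q` is a multiple of `d • Q`
      have hcop : Nat.Coprime d P.p := (Nat.Coprime.symm ((Nat.Prime.coprime_iff_not_dvd P.pp).mpr hd))
      obtain ⟨e, -, he⟩ := Nat.exists_mul_mod_eq_one_of_coprime hcop P.pp.one_lt
      have hQe : e • (d • Q) = Q := by
        rw [← mul_nsmul', mul_comm e d, ← Nat.div_add_mod (d * e) P.p, he, add_nsmul, mul_nsmul,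
          hQ, nsmul_zero, zero_add, one_nsmul]
      rcases rp_nsmul P A (Or.inr hdx) e with h | h
      · exact hQ0 (hQe ▸ h)
      · exact h (hQe.symm ▸ hQx)
    have := hT2 Q₀ (hall Q₀ hQ₀) hQ₀ σ₀ hσ₀ c hc.symm
    rw [this, hc1, one_nsmul]
  · rintro (rfl | hQx)
    · exact T.zero_mem
    · obtain ⟨k, hk⟩ := e1_cyclic N h0 hp hx hQ hQx
      rw [hk]
      exact T.nsmul_mem hP₁T k

end Fermat.Agent.LP.Top
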