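import Fermat.Agent.LP.Iface
import Fermat.Agent.S33.Wire.Triv

/-!
# LP-TOP, file `Emb`: calculus of `KumEmb`; the subspace `V'` of the classes which are trivial at the
Gauss valuation

`KummerEquiv.refl/symm/trans/mul` : `GR/F/Kummer.lean`.  `trivAt_one/mul/congr/inv` :
`S33/Wire/Triv.lean`.  The `ZMod p`-module structure of `Gal.Tor E p` is the one of the Prelude
(`galoisRepModuleEnd`); `(k : ZMod p) • x = k.val • x` (`ZMod.val`, `Nat.cast_smul_eq_nsmul`,
`ZMod.natCast_zmod_val`).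
-/

set_option autoImplicit false
set_option synthInstance.maxHeartbeats 400000

noncomputable section

namespace Fermat.Agent.LP

open Fermat.Agent.GR ModularCurve
open Fermat.Agent.GR.H (GQ)

variable {E : WeierstrassCurve ℚ} {p N : ℕ} {S0 : Set ℕ} {a : ℕ → ℤ}
  {Φ : Gal.Tor E p → LaurentSeries Qbar}

theorem KummerEquiv_pow {n : ℕ} {u v : LaurentSeries Qbar} (h : KummerEquiv N n u v) (k : ℕ) :
    KummerEquiv N n (u ^ k) (v ^ k) := by
  obtain ⟨z, hz, hz0, rfl⟩ := h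
  exact ⟨z ^ k, pow_mem hz k, pow_ne_zero k hz0, by
    rw [mul_pow, ← pow_mul, ← pow_mul, mul_comm n k]⟩

/-- `u ^ k ~ u ^ k'` if `k ≡ k'` modulo `n`. -/
theorem KummerEquiv_pow_of_modEq {n : ℕ} {u : LaurentSeries Qbar} (hu : u ∈ FF Qbar N) (hu0 : u ≠ 0)
    {k k' : ℕ} (h : k ≡ k' [MOD n]) : KummerEquiv N n (u ^ k) (u ^ k') := by
  have key : ∀ {k k' : ℕ}, k ≤ k' → k ≡ k' [MOD n] → KummerEquiv N n (u ^ k) (u ^ k') := by
    intro k k' hle h
    obtain ⟨t, ht⟩ := (Nat.modEq_iff_dvd' hle).mp h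
    refine ⟨u ^ t, pow_mem hu t, pow_ne_zero t hu0, ?_⟩
    rw [← pow_mul, ← pow_add, mul_comm t n, ← ht, Nat.add_sub_cancel' hle]
  rcases le_total k k' with hle | hle
  · exact key hle h
  · exact (key hle h.symm).symm

/-- cancellation. -/
theorem KummerEquiv_of_mul_left {n : ℕ} {u v z : LaurentSeries Qbar} (hz : z ≠ 0)
    (h : KummerEquiv N n (z * u) (z * v)) : KummerEquiv N n u v := by
  obtain ⟨w, hw, hw0, e⟩ := h
  refine ⟨w, hw, hw0, ?_⟩
  rw [mul_assoc] at e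
  exact mul_left_cancel₀ hz e

theorem KumEmb.mem (h : KumEmb E p N S0 a Φ) (x : Gal.Tor E p) : Φ x ∈ FF Qbar N :=
  (h.kummer x).mem

theorem KumEmb.ne_zero (h : KumEmb E p N S0 a Φ) (x : Gal.Tor E p) : Φ x ≠ 0 :=
  (h.kummer x).ne_zero

/-- `mul 0 0` and cancellation. -/
theorem KumEmb.map_zero (h : KumEmb E p N S0 a Φ) : KummerEquiv N p 1 (Φ 0) := by
  have h0 := h.mul 0 0
  rw [add_zero] at h0
  refine KummerEquiv_of_mul_left (h.ne_zero 0) ?_
  rwa [mul_one]

theorem KumEmb.map_nsmul (h : KumEmb E p N S0 a Φ) (k : ℕ) (x : Gal.Tor E p) :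
    KummerEquiv N p (Φ (k • x)) (Φ x ^ k) := by
  induction k with
  | zero =>
    rw [zero_smul, pow_zero]
    exact h.map_zero.symm
  | succ k ih =>
    rw [succ_nsmul, pow_succ]
    exact (h.mul (k • x) x).trans (ih.mul (KummerEquiv.refl _))

/-- `Φ (x - y) * Φ y ~ Φ x`. -/
theorem KumEmb.map_sub (h : KumEmb E p N S0 a Φ) (x y : Gal.Tor E p) :
    KummerEquiv N p (Φ (x - y)) (Φ x / Φ y) := by
  have h0 := h.mul (x - y) y
  rw [sub_add_cancel] at h0
  refine KummerEquiv_of_mul_left (h.ne_zero y) ?_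
  rw [mul_div_cancel₀ _ (h.ne_zero y), mul_comm]
  exact h0.symm

/-- `inj` applied to `x - y`. -/
theorem KumEmb.eq_of_equiv (h : KumEmb E p N S0 a Φ) {x y : Gal.Tor E p}
    (hxy : KummerEquiv N p (Φ x) (Φ y)) : x = y := by
  have h1 : KummerEquiv N p 1 (Φ x / Φ y) := by
    refine KummerEquiv_of_mul_left (h.ne_zero y) ?_
    rw [mul_div_cancel₀ _ (h.ne_zero y), mul_one]
    exact hxy.symm
  exact sub_eq_zero.mp (h.inj _ (h1.trans (h.map_sub x y).symm))

theorem Emb_trivAt_pow {n : ℕ} {A : ValuationSubring Qbar} {y : LaurentSeries Qbar}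
    (h : GS.TrivAt N n A y) (k : ℕ) : GS.TrivAt N n A (y ^ k) := by
  induction k with
  | zero =>
    rw [pow_zero]
    exact S33.trivAt_one N n A
  | succ k ih =>
    rw [pow_succ]
    exact S33.trivAt_mul ih h

/-- the subspace `V'`. -/
theorem KumEmb.exists_trivSub [Fact p.Prime] (h : KumEmb E p N S0 a Φ)
    (A : ValuationSubring Qbar) :
    ∃ V' : Submodule (ZMod p) (Gal.Tor E p), ∀ x, x ∈ V' ↔ GS.TrivAt N p A (Φ x) := by
  refine ⟨{ carrier := {x | GS.TrivAt N p A (Φ x)}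
            add_mem' := ?_
            zero_mem' := ?_
            smul_mem' := ?_ }, fun x => Iff.rfl⟩
  · intro x y hx hy
    exact S33.trivAt_congr (S33.trivAt_mul hx hy) (h.mul x y).symm
  · exact S33.trivAt_congr (S33.trivAt_one N p A) h.map_zero
  · intro c x hx
    have hc : c • x = c.val • x := by
      rw [← Nat.cast_smul_eq_nsmul (ZMod p), ZMod.natCast_zmod_val]
    show GS.TrivAt N p A (Φ (c • x))
    rw [hc]
    exact S33.trivAt_congr (Emb_trivAt_pow hx c.val) (h.map_nsmul c.val x).symm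

end Fermat.Agent.LP
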