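import Fermat.Agent.LP.Top.Main
import Fermat.Agent.LP.Gal.Out
import Fermat.Agent.LP.New.Out
import Fermat.Agent.LP.Fin.Out
import Fermat.Agent.LP.EIS.Out
import Fermat.Agent.LP.Nod.BrMain
import Fermat.Agent.GS.Inst.Out

/-!
# LP-TOP, file `Final`: S44 from the two remaining inputs `PLOut` (LP-PL) and `OldOut` (LP-DESC + LP-OLD)
-/

set_option autoImplicit false

noncomputable section

open WeierstrassCurve WeierstrassCurve.Affine WeierstrassCurve.Affine.Point

namespace Fermat.Agent.LP.Top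

open Fermat.Agent.GR ModularCurve

/-- the output of LP-PL at all `(p, M0, A)` -/
def PLAll : Prop :=
  ∀ (p : ℕ) [NeZero p] (M0 : ℕ) (A : ValuationSubring Qbar), p.Prime → 5 ≤ p → M0 ≠ 0 →
    ¬ p ∣ M0 → A.LiesOverPrime p → PLOut p M0 A

/-- the output of LP-DESC + LP-OLD at all `(p, M0, A)` -/
def OldAll : Prop :=
  ∀ (p M0 : ℕ) [NeZero M0] (A : ValuationSubring Qbar), p.Prime → 5 ≤ p →
    ¬ p ∣ M0 → A.LiesOverPrime p → OldOut p M0 A

theorem geoAll (hPL : PLAll) (hOld : OldAll) : GeoAll where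
  nod := fun p M0 A hp hp5 hM0 hpM hA =>
    nodalInertiaP GS.Inst.instOut p M0 hM0 hp (by omega) hpM A hA
  pl := hPL
  eis := fun p _ M0 A hp _ _ _ hA => EIS.eisOut p M0 hp A hA
  old := hOld

/-- **S44** from `PLAll` and `OldAll`. -/
theorem S44_of (hPL : PLAll) (hOld : OldAll) (P : FreyPackage) {N : ℕ}
    (hcond : P.IsConductorLevel N) (hpN : P.p ∣ N)
    (hirr : GaloisRepIsIrreducible (K := AlgebraicClosure ℚ) ℚ P.freyCurve P.p)
    (hmod : P.ModularRepOfLevel N) : ∃ M : ℕ, M ∣ N ∧ ¬ P.p ∣ M ∧ P.ModularRepOfLevel M :=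
  main Gal.galOut Gal.torAll New.newOut Fin.finOut freyOut (geoAll hPL hOld) P hcond hpN hirr hmod

end Fermat.Agent.LP.Top
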