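import Fermat.Agent.LP.Top.Final
import Fermat.Agent.LP.Old.Out

/-!
# LP-TOP, file `Final2`: S44 from the only remaining input `PLAll` (LP-PL)
-/

set_option autoImplicit false

noncomputable section

open WeierstrassCurve WeierstrassCurve.Affine WeierstrassCurve.Affine.Point

namespace Fermat.Agent.LP.Top

theorem oldAll : OldAll := fun p M0 _ A hp hp5 hpM hA => Old.oldOut p M0 hp hp5 hpM A hA

/-- **S44** from `PLAll`. -/
theorem S44_of_pl (hPL : PLAll) (P : FreyPackage) {N : ℕ}
    (hcond : P.IsConductorLevel N) (hpN : P.p ∣ N)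
    (hirr : GaloisRepIsIrreducible (K := AlgebraicClosure ℚ) ℚ P.freyCurve P.p)
    (hmod : P.ModularRepOfLevel N) : ∃ M : ℕ, M ∣ N ∧ ¬ P.p ∣ M ∧ P.ModularRepOfLevel M :=
  S44_of hPL oldAll P hcond hpN hirr hmod

end Fermat.Agent.LP.Top
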