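import Fermat.Agent.LP.Top.Final2
import Fermat.Agent.LP.PL.Loc.Out

/-!
# LP-TOP, file `Final3`: S44 from the only remaining input `PL.NodeAll` (LP-PL, parts (B)-(D))
-/

set_option autoImplicit false

noncomputable section

open WeierstrassCurve WeierstrassCurve.Affine WeierstrassCurve.Affine.Point

namespace Fermat.Agent.LP.Top

open Fermat.Agent.GR

/-- the output of `LP/PL/Loc/Glue.lean` at all `(p, M0, A)` -/
def NodeEverywhere : Prop :=
  ∀ (p : ℕ) [NeZero p] (M0 : ℕ) [NeZero (p * (4 * M0))] (A : ValuationSubring Qbar), p.Prime →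
    5 ≤ p → M0 ≠ 0 → ¬ p ∣ M0 → A.LiesOverPrime p → PL.NodeAll p M0 A

theorem plAll (H : NodeEverywhere) : PLAll := fun p _ M0 A hp hp5 hM0 hpM hA =>
  haveI : NeZero (p * (4 * M0)) := ⟨mul_ne_zero hp.ne_zero (mul_ne_zero four_ne_zero hM0)⟩
  PL.plOut_of_nodeAll p M0 A hp hp5 hM0 hpM hA (H p M0 A hp hp5 hM0 hpM hA)

/-- **S44** from `NodeEverywhere`. -/
theorem S44_of_node (H : NodeEverywhere) (P : FreyPackage) {N : ℕ}
    (hcond : P.IsConductorLevel N) (hpN : P.p ∣ N)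
    (hirr : GaloisRepIsIrreducible (K := AlgebraicClosure ℚ) ℚ P.freyCurve P.p)
    (hmod : P.ModularRepOfLevel N) : ∃ M : ℕ, M ∣ N ∧ ¬ P.p ∣ M ∧ P.ModularRepOfLevel M :=
  S44_of_pl (plAll H) P hcond hpN hirr hmod

end Fermat.Agent.LP.Top
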