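import Fermat.Agent.LP.Iface
import Fermat.Agent.LP.Frey.Final

/-!
# LP-TOP, file `FreyOut`: the output `FreyOut` of LP-FREY (`Frey.frey_peu_final`)
-/

set_option autoImplicit false
set_option synthInstance.maxHeartbeats 400000

namespace Fermat.Agent.LP.Top

theorem freyOut : FreyOut :=
  fun P hpabc A hA _ζ hζ _y hy0 hyp hyE => Frey.frey_peu_final P hpabc A hA hζ hy0 hyp hyE

end Fermat.Agent.LP.Top
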