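import Fermat.Agent.LP.Top.Emb
import Fermat.Agent.S33.ND.Nodal
import Fermat.Agent.GR.I.Build

/-!
# LP-TOP, file `Inert`: the action of the inertia group on `V = Φ(E[p])`

`N = p * M0`, `~` is `KummerEquiv N p`, `U = normT p ζ`, `y = Φ x`, `w y ~ y ^ s`, `s ∈ {1, p - 1}`.

* `isEig_congr`, `isEig_pow` : `heckeMulT ℓ ζ` is multiplicative and maps `FF Q̄ N` to itself
  (`Fermat.Agent.GR.heckeMulTHom`, `GR/F/Main.lean`; `GR.I.isKummer_heckeMulT`, `GR.B.Export`), so it respects `~`.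
* `pop_equiv` : `NewOut` applied to `y` gives `y * U (w y) ~ 1`; applied to `w y` (Kummer:
  `GS.FW.isKummer_algEquiv`; eigen: `isEig_pow`, `isEig_congr` from `y ^ s ~ w y`; `w (w y) = y`:
  `GS.IsWQ.invol`) gives `w y * U y ~ 1`.
* `sub_mem` : (K1) `GS.trivAt_gal_div`, `KumEmb.equiv`, `KumEmb.map_sub`, `S33.trivAt_congr`.
* `smul_eq` : `TrivAt y` ⟹ `TrivAt (w y)` (`trivAt` of a power, `trivAt_congr`); `S33.NodalOrd`
  (`S33.pop` unfolds to `w y * U y`) ⟹ `y ^ c ~ gal τ y`; `KumEmb.map_nsmul`, `KumEmb.equiv`, `KumEmb.eq_of_equiv`.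
* `deepAt` : `S33.ND.sq_equiv`, `S33.ND.iterate_equiv`, `LP.Dep.exists_deepAt_iterate`, `LP.Dep.DeepAt.congr`.
-/

set_option autoImplicit false
set_option synthInstance.maxHeartbeats 400000

noncomputable section

namespace Fermat.Agent.LP.Top

open Fermat.Agent.GR ModularCurve
open Fermat.Agent.GR.H (GQ)

variable {E : WeierstrassCurve ℚ} {p M0 : ℕ} {S0 : Finset ℕ} {a : ℕ → ℤ}
  {Φ : Gal.Tor E p → LaurentSeries Qbar} {A : ValuationSubring Qbar}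

theorem isEig_congr {N : ℕ} [NeZero N] (hS0 : ∀ ℓ : ℕ, ℓ.Prime → ℓ ∣ N → ℓ ∈ S0)
    {y y' : LaurentSeries Qbar} (hy : y ∈ FF Qbar N) (hy0 : y ≠ 0) (h : KummerEquiv N p y y')
    (he : IsEig N p (S0 : Set ℕ) a y) : IsEig N p (S0 : Set ℕ) a y' := by
  intro ℓ _ ζ hℓ hℓS hζ e hea
  have hℓN : ¬ ℓ ∣ N := fun hd => hℓS (Finset.mem_coe.mpr (hS0 ℓ hℓ hd))
  have : Fact ℓ.Prime := ⟨hℓ⟩
  have h1 : KummerEquiv N p (heckeMulT ℓ ζ y) (heckeMulT ℓ ζ y') := by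
    obtain ⟨z, hz, hz0, rfl⟩ := h
    refine ⟨heckeMulT ℓ ζ z, GR.B.heckeMulT_mem_FF_Qbar ℓ hℓN ζ hζ hz,
      heckeMulT_ne_zero ℓ ζ hζ hz0, ?_⟩
    rw [heckeMulT_mul ℓ ζ hζ]
    congr 1
    exact map_pow (Fermat.Agent.GR.heckeMulTHom ℓ ζ hζ) z p
  exact (h1.symm.trans (he ℓ ζ hℓ hℓS hζ e hea)).trans (KummerEquiv_pow h e)

theorem isEig_pow {N : ℕ} [NeZero N] (hS0 : ∀ ℓ : ℕ, ℓ.Prime → ℓ ∣ N → ℓ ∈ S0)
    {y : LaurentSeries Qbar} (hy : y ∈ FF Qbar N) (hy0 : y ≠ 0)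
    (he : IsEig N p (S0 : Set ℕ) a y) (s : ℕ) : IsEig N p (S0 : Set ℕ) a (y ^ s) := by
  intro ℓ _ ζ hℓ hℓS hζ e hea
  have h1 : heckeMulT ℓ ζ (y ^ s) = heckeMulT ℓ ζ y ^ s :=
    map_pow (Fermat.Agent.GR.heckeMulTHom ℓ ζ hζ) y s
  have h2 := KummerEquiv_pow (he ℓ ζ hℓ hℓS hζ e hea) s
  rw [h1, ← pow_mul, mul_comm s e, pow_mul]
  exact h2

/-- The hypotheses on `(Φ, s, w)` which are used in this file. -/
structure Setup (E : WeierstrassCurve ℚ) (p M0 : ℕ) [NeZero M0] (S0 : Finset ℕ) (a : ℕ → ℤ)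
    (Φ : Gal.Tor E p → LaurentSeries Qbar) (s : ℕ)
    (w : FF Qbar (p * M0) ≃ₐ[Qbar] FF Qbar (p * M0)) : Prop where
  prime : p.Prime
  five : 5 ≤ p
  ndvd : ¬ p ∣ M0
  exc : ∀ ℓ : ℕ, ℓ.Prime → ℓ ∣ p * M0 → ℓ ∈ S0
  emb : KumEmb E p (p * M0) (S0 : Set ℕ) a Φ
  isWQ : GS.IsWQ Qbar p M0 w
  sign : s = 1 ∨ s = p - 1
  wsign : ∀ (x : Gal.Tor E p) (y : FF Qbar (p * M0)), (y : LaurentSeries Qbar) = Φ x →
    KummerEquiv (p * M0) p ((y : LaurentSeries Qbar) ^ s) (w y : FF Qbar (p * M0))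
  noChi : ¬ HasChi p M0 (S0 : Set ℕ) a

variable [NeZero M0] {s : ℕ} {w : FF Qbar (p * M0) ≃ₐ[Qbar] FF Qbar (p * M0)}

theorem Setup.pop_equiv [NeZero p] (H : Setup E p M0 S0 a Φ s w) (hNew : NewOut) (ζ : Qbarˣ)
    (hζ : IsPrimitiveRoot ζ p) (x : Gal.Tor E p) (y : FF Qbar (p * M0))
    (hy : (y : LaurentSeries Qbar) = Φ x) :
    KummerEquiv (p * M0) p 1 (S33.pop w ζ y) ∧ KummerEquiv (p * M0) p 1 (S33.pop w ζ (w y)) := by
  have : NeZero (p * M0) := ⟨mul_ne_zero (NeZero.ne p) (NeZero.ne M0)⟩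
  obtain ⟨ι⟩ : Nonempty (Qbar →+* ℂ) := S24.nonempty_iotaC
  have hcop : p.Coprime M0 := (Nat.Prime.coprime_iff_not_dvd H.prime).2 H.ndvd
  have hinv : w (w y) = y := GS.IsWQ.invol ι hcop H.isWQ y
  have hK : IsKummer (N := p * M0) p (y : LaurentSeries Qbar) := by
    rw [hy]
    exact H.emb.kummer x
  have hE : IsEig (p * M0) p (S0 : Set ℕ) a (y : LaurentSeries Qbar) := by
    rw [hy]
    exact H.emb.eig x
  have hKw : IsKummer (N := p * M0) p ((w y : FF Qbar (p * M0)) : LaurentSeries Qbar) :=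
    GS.FW.isKummer_algEquiv w y hK
  have hEw : IsEig (p * M0) p (S0 : Set ℕ) a ((w y : FF Qbar (p * M0)) : LaurentSeries Qbar) :=
    isEig_congr H.exc (pow_mem hK.mem s) (pow_ne_zero s hK.ne_zero) (H.wsign x y hy)
      (isEig_pow H.exc hK.mem hK.ne_zero hE s)
  have h1 := hNew p M0 H.prime H.five H.ndvd S0 a H.exc H.noChi w H.isWQ ζ hζ y hK hE
  have h2 := hNew p M0 H.prime H.five H.ndvd S0 a H.exc H.noChi w H.isWQ ζ hζ (w y) hKw hEw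
  rw [hinv] at h2
  refine ⟨h2, ?_⟩
  unfold S33.pop
  rw [hinv]
  exact h1

theorem Setup.sub_mem (H : Setup E p M0 S0 a Φ s w) {σ : GQ} (hσ : σ ∈ A.inertiaSubgroupIn ℚ)
    (x : Gal.Tor E p) : GS.TrivAt (p * M0) p A (Φ (σ • x - x)) := by
  have h1 : GS.TrivAt (p * M0) p A (gal σ (Φ x) / Φ x) :=
    GS.trivAt_gal_div H.prime.pos hσ (H.emb.mem x) (H.emb.ne_zero x)
  have h2 : KummerEquiv (p * M0) p (gal σ (Φ x) / Φ x) (Φ (σ • x) / Φ x) := by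
    rw [div_eq_mul_inv, div_eq_mul_inv]
    exact (H.emb.equiv σ x).symm.mul (KummerEquiv.refl _)
  exact S33.trivAt_congr h1 (h2.trans (H.emb.map_sub (σ • x) x).symm)

theorem Inert_trivAt_pow {N n : ℕ} {y : LaurentSeries Qbar} (h : GS.TrivAt N n A y) (k : ℕ) :
    GS.TrivAt N n A (y ^ k) := by
  induction k with
  | zero =>
    rw [pow_zero]
    exact S33.trivAt_one N n A
  | succ k ih =>
    rw [pow_succ]
    exact S33.trivAt_mul ih h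

theorem Setup.trivAt_w (H : Setup E p M0 S0 a Φ s w) (x : Gal.Tor E p) (y : FF Qbar (p * M0))
    (hy : (y : LaurentSeries Qbar) = Φ x) (ht : GS.TrivAt (p * M0) p A (Φ x)) :
    GS.TrivAt (p * M0) p A (w y : FF Qbar (p * M0)) := by
  rw [← hy] at ht
  exact S33.trivAt_congr (Inert_trivAt_pow ht s) (H.wsign x y hy)

theorem Setup.smul_eq [NeZero p] (H : Setup E p M0 S0 a Φ s w) (hNew : NewOut)
    (hNod : S33.NodalOrd p M0 A) {σ : GQ} (hσ : σ ∈ A.inertiaSubgroupIn ℚ) (c : ℕ)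
    (hc : ∀ μ : Qbar, μ ^ p = 1 → σ μ = μ ^ c) (x : Gal.Tor E p)
    (ht : GS.TrivAt (p * M0) p A (Φ x)) : σ • x = c • x := by
  obtain ⟨ζ0, hζ0⟩ := HasEnoughRootsOfUnity.exists_primitiveRoot Qbar p
  obtain ⟨ζ, hζ⟩ : ∃ ζ : Qbarˣ, IsPrimitiveRoot ζ p :=
    ⟨hζ0.isUnit (NeZero.ne p) |>.unit, IsPrimitiveRoot.coe_units_iff.mp (by simpa using hζ0)⟩
  obtain ⟨h1, h2⟩ := H.pop_equiv hNew ζ hζ x ⟨Φ x, H.emb.mem x⟩ rfl
  have h3 := hNod w H.isWQ ζ hζ ⟨Φ x, H.emb.mem x⟩ (H.emb.kummer x) ht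
    (H.trivAt_w x ⟨Φ x, H.emb.mem x⟩ rfl ht) h1 h2 σ hσ c hc
  exact H.emb.eq_of_equiv (((H.emb.equiv σ x).trans h3.symm).trans (H.emb.map_nsmul c x).symm)

theorem Setup.deepAt [NeZero p] (H : Setup E p M0 S0 a Φ s w) (hNew : NewOut)
    (hA : A.LiesOverPrime p) (x : Gal.Tor E p) (y : FF Qbar (p * M0))
    (hy : (y : LaurentSeries Qbar) = Φ x) (ht : GS.TrivAt (p * M0) p A (Φ x)) :
    DeepAt (p * M0) p A y ∧ DeepAt (p * M0) p A (w y : FF Qbar (p * M0)) := by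
  have : NeZero (p * M0) := ⟨mul_ne_zero (NeZero.ne p) (NeZero.ne M0)⟩
  have : Fact p.Prime := ⟨H.prime⟩
  obtain ⟨ι⟩ : Nonempty (Qbar →+* ℂ) := S24.nonempty_iotaC
  have hcop : p.Coprime M0 := (Nat.Prime.coprime_iff_not_dvd H.prime).2 H.ndvd
  have hinv : w (w y) = y := GS.IsWQ.invol ι hcop H.isWQ y
  obtain ⟨ζ0, hζ0⟩ := HasEnoughRootsOfUnity.exists_primitiveRoot Qbar p
  obtain ⟨ζ, hζ⟩ : ∃ ζ : Qbarˣ, IsPrimitiveRoot ζ p :=
    ⟨hζ0.isUnit (NeZero.ne p) |>.unit, IsPrimitiveRoot.coe_units_iff.mp (by simpa using hζ0)⟩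
  obtain ⟨h1, h2⟩ := H.pop_equiv hNew ζ hζ x y hy
  unfold S33.pop at h1 h2
  rw [hinv] at h2
  have hpN : p ∣ p * M0 := dvd_mul_right p M0
  have hK : IsKummer (N := p * M0) p (y : LaurentSeries Qbar) := by
    rw [hy]
    exact H.emb.kummer x
  have hKw : IsKummer (N := p * M0) p ((w y : FF Qbar (p * M0)) : LaurentSeries Qbar) :=
    GS.FW.isKummer_algEquiv w y hK
  have hty : GS.TrivAt (p * M0) p A (y : LaurentSeries Qbar) := by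
    rw [hy]
    exact ht
  have htw := H.trivAt_w x y hy ht
  constructor
  · have h3 := S33.ND.sq_equiv hpN p ζ hζ hKw.mem hKw.ne_zero hK.mem hK.ne_zero h1 h2
    obtain ⟨r₀, hr₀⟩ := LP.Dep.exists_deepAt_iterate hpN hA ζ hζ hty
    exact LP.Dep.DeepAt.congr (S33.ND.iterate_equiv hpN p ζ hζ h3 r₀) (hr₀ (2 * r₀) (by omega))
  · have h3 := S33.ND.sq_equiv hpN p ζ hζ hK.mem hK.ne_zero hKw.mem hKw.ne_zero h2 h1
    obtain ⟨r₀, hr₀⟩ := LP.Dep.exists_deepAt_iterate hpN hA ζ hζ htw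
    exact LP.Dep.DeepAt.congr (S33.ND.iterate_equiv hpN p ζ hζ h3 r₀) (hr₀ (2 * r₀) (by omega))

end Fermat.Agent.LP.Top
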