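import Fermat.Agent.LP.Top.Emb
import Fermat.Agent.GR.B.Export

/-!
# LP-TOP (K): complements to `Emb.lean` (`KummerEquiv`, `IsEig`, `KumEmb`)
-/

set_option autoImplicit false
set_option synthInstance.maxHeartbeats 400000

noncomputable section

namespace Fermat.Agent.LP.Top

open Fermat.Agent.GR ModularCurve
open Fermat.Agent.GR.H (GQ)

section basic

variable {N n : ℕ}

theorem Kum_inv {u v : LaurentSeries Qbar} (h : KummerEquiv N n u v) :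
    KummerEquiv N n u⁻¹ v⁻¹ := by
  obtain ⟨z, hz, hz0, rfl⟩ := h
  exact ⟨z⁻¹, inv_mem hz, inv_ne_zero hz0, by rw [mul_inv, inv_pow]⟩

theorem Kum_div {u v u' v' : LaurentSeries Qbar} (h : KummerEquiv N n u v)
    (h' : KummerEquiv N n u' v') : KummerEquiv N n (u / u') (v / v') := by
  rw [div_eq_mul_inv, div_eq_mul_inv]
  exact h.mul (Kum_inv h')

end basic

section eig

variable {N p : ℕ} [NeZero N] {S0 : Set ℕ} {a : ℕ → ℤ}

/-- `hS0`: the primes of `N` are in `S0`. -/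
theorem _root_.Fermat.Agent.LP.IsEig.congr (hS0 : ∀ ℓ : ℕ, ℓ.Prime → ℓ ∣ N → ℓ ∈ S0)
    {y y' : LaurentSeries Qbar} (h : KummerEquiv N p y y') (hy : IsEig N p S0 a y) :
    IsEig N p S0 a y' := by
  intro ℓ _ ζ hℓ hℓS hζ e hea
  have hℓN : ¬ ℓ ∣ N := fun hd => hℓS (hS0 ℓ hℓ hd)
  have : Fact ℓ.Prime := ⟨hℓ⟩
  have h1 : KummerEquiv N p (heckeMulT ℓ ζ y) (heckeMulT ℓ ζ y') := by
    obtain ⟨z, hz, hz0, rfl⟩ := h
    refine ⟨heckeMulT ℓ ζ z, GR.B.heckeMulT_mem_FF_Qbar ℓ hℓN ζ hζ hz,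
      heckeMulT_ne_zero ℓ ζ hζ hz0, ?_⟩
    rw [heckeMulT_mul ℓ ζ hζ]
    congr 1
    exact map_pow (Fermat.Agent.GR.heckeMulTHom ℓ ζ hζ) z p
  exact (h1.symm.trans (hy ℓ ζ hℓ hℓS hζ e hea)).trans (KummerEquiv_pow h e)

omit [NeZero N] in
theorem _root_.Fermat.Agent.LP.IsEig.pow {y : LaurentSeries Qbar} (hy : IsEig N p S0 a y) (s : ℕ) :
    IsEig N p S0 a (y ^ s) := by
  intro ℓ _ ζ hℓ hℓS hζ e hea
  have h1 : heckeMulT ℓ ζ (y ^ s) = heckeMulT ℓ ζ y ^ s :=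
    map_pow (Fermat.Agent.GR.heckeMulTHom ℓ ζ hζ) y s
  have h2 := KummerEquiv_pow (hy ℓ ζ hℓ hℓS hζ e hea) s
  rw [h1, ← pow_mul, mul_comm s e, pow_mul]
  exact h2

end eig

section emb

variable {E : WeierstrassCurve ℚ} {p N : ℕ} {S0 : Set ℕ} {a : ℕ → ℤ}
  {Φ : Gal.Tor E p → LaurentSeries Qbar}

theorem _root_.Fermat.Agent.LP.KumEmb.map_neg (H : KumEmb E p N S0 a Φ) (x : Gal.Tor E p) :
    KummerEquiv N p (Φ (-x)) (Φ x)⁻¹ := by
  have h1 := H.map_sub 0 x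
  rw [zero_sub] at h1
  have h2 : KummerEquiv N p (Φ 0 / Φ x) (1 / Φ x) := Kum_div H.map_zero.symm (KummerEquiv.refl _)
  rw [one_div] at h2
  exact h1.trans h2

end emb

end Fermat.Agent.LP.Top
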