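import Fermat.Agent.LP.Iface
import Fermat.Agent.GS.WQ
import Fermat.Agent.GS.FW.AL
import Fermat.Agent.GR.E.BR10
import Fermat.Agent.GR.D.LevelChange
import Fermat.Agent.GT.Brg.Level
import Fermat.Agent.GT.Brg.LevelUp
import Fermat.Agent.LP.Nod.BrGauss

/-!
# LP-TOP, file `Level`: from level `N = p * M0` to the auxiliary level `N1 = p * (4 * M0)` and back

* `FF_le_aux` : `GS.FW.FF_mono`.
* `kummerEquiv_aux` : `GT.Brg.kummerEquiv_of_dvd` (or directly: same witness).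
* `isKummer_aux` : `GR.D.LC.isKummer_mono`.
* `deepAt_aux` : unfold `DeepAt`, `DepthAt`: same witnesses, `FF_le_aux`, `kummerEquiv_aux`.
* `kummerEquiv_one_descend` : `GT.Brg.kummerEquiv_pow_descent` gives `1 ~ u ^ d` at level `N`,
  `d = (FF Qb N).relfinrank (FF Qb N1)`; `d * ψ(N) = ψ(4 N)` (`relfinrank_mul_relfinrank`, `GR.E.BR10_relfinrank_j`),
  `ψ(4 N) ∈ {6 ψ(N), 4 ψ(N)}` (`GR.E.BR10_dedekindPsi_mul_prime`, `S20.AR.dedekindPsi_mul_of_dvd`; pattern: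
  `GT/EMB/Norm1.lean` `relfinrank_FF_sq`, `GR/E/BR10.lean` `relfinrank_FF_mul_prime`), so `d ∣ 24` is prime to `p ≥ 5`;
  Bezout with `u ^ p ~ 1`.
* `wQ_aux` : both sides are `Q̄`-algebra homomorphisms `FF Q̄ N → LaurentSeries Q̄` which agree on the
  generators `j(q^d)`, `d ∣ p * M0` (write `d = a * d'`, `a ∈ {1, p}`, `d' ∣ M0`; `IsWQ` with `(a, b, d')`).
  `FF Q̄ N = adjoin` of these generators (`modularFunctionFieldFullC`; pattern: `GS/WQ.lean` `isWQ_iff_gen`,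
  `IsWQ.eq_wQ`; `IntermediateField.algHom_ext_of_eq_adjoin` / `adjoin_induction`).
-/

set_option autoImplicit false
set_option synthInstance.maxHeartbeats 400000

noncomputable section

namespace Fermat.Agent.LP.Top

open Fermat.Agent.GR ModularCurve

variable {p M0 : ℕ}

theorem dvd_aux (p M0 : ℕ) : p * M0 ∣ p * (4 * M0) := ⟨4, by ring⟩

theorem FF_le_aux (p M0 : ℕ) : FF Qbar (p * M0) ≤ FF Qbar (p * (4 * M0)) :=
  GS.FW.FF_mono (dvd_aux p M0)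

theorem kummerEquiv_aux {n : ℕ} {u v : LaurentSeries Qbar} (h : KummerEquiv (p * M0) n u v) :
    KummerEquiv (p * (4 * M0)) n u v := by
  exact GT.Brg.kummerEquiv_of_dvd (dvd_aux p M0) h

theorem isKummer_aux (hp : p ≠ 0) (hM0 : M0 ≠ 0) {n : ℕ} {u : LaurentSeries Qbar}
    (h : IsKummer (N := p * M0) n u) : IsKummer (N := p * (4 * M0)) n u := by
  have : NeZero (p * M0) := ⟨mul_ne_zero hp hM0⟩
  have : NeZero (p * (4 * M0)) := ⟨mul_ne_zero hp (mul_ne_zero (by norm_num) hM0)⟩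
  exact GR.D.LC.isKummer_mono (dvd_aux p M0) h

theorem deepAt_aux {A : ValuationSubring Qbar} {u : LaurentSeries Qbar}
    (h : DeepAt (p * M0) p A u) : DeepAt (p * (4 * M0)) p A u := by
  exact DeepAt.mono (dvd_aux p M0) h

/-- auxiliary: `ψ(4 N) ∈ {4 ψ(N), 6 ψ(N)}`. -/
theorem Level_psi (N : ℕ) (hN : N ≠ 0) :
    dedekindPsi (2 * (2 * N)) = 4 * dedekindPsi N ∨ dedekindPsi (2 * (2 * N)) = 6 * dedekindPsi N := by
  have h1 : dedekindPsi (2 * (2 * N)) = 2 * dedekindPsi (2 * N) :=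
    Fermat.Agent.S20.AR.dedekindPsi_mul_of_dvd (mul_ne_zero two_ne_zero hN) (Dvd.intro _ rfl)
      two_ne_zero
  by_cases h2 : 2 ∣ N
  · left
    rw [h1, Fermat.Agent.S20.AR.dedekindPsi_mul_of_dvd hN h2 two_ne_zero]
    ring
  · right
    rw [h1, mul_comm 2 N, GR.E.BR10_dedekindPsi_mul_prime N hN 2 Nat.prime_two h2]
    ring

/-- auxiliary: the degree `[FF (4 N) : FF N]` is prime to `p ≥ 5`. -/
theorem Level_coprime (hp : p.Prime) (hp5 : 5 ≤ p) (hM0 : M0 ≠ 0) :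
    ((FF Qbar (p * M0)).relfinrank (FF Qbar (p * (4 * M0)))).Coprime p := by
  have hN0 : p * M0 ≠ 0 := mul_ne_zero hp.ne_zero hM0
  have : NeZero (p * M0) := ⟨hN0⟩
  have : NeZero (p * (4 * M0)) := ⟨mul_ne_zero hp.ne_zero (mul_ne_zero (by norm_num) hM0)⟩
  have h1 := IntermediateField.relfinrank_mul_relfinrank (GR.E.BR10_j_le (p * M0))
    (GR.E.BR10_FF_mono (dvd_aux p M0))
  rw [GR.E.BR10_relfinrank_j, GR.E.BR10_relfinrank_j] at h1
  have h2 : dedekindPsi (p * M0) ≠ 0 := by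
    rw [← Fermat.Agent.S24.card_cosets]
    exact Nat.card_pos.ne'
  have h3 : p * (4 * M0) = 2 * (2 * (p * M0)) := by ring
  rw [h3] at h1
  have h4 : (FF Qbar (p * M0)).relfinrank (FF Qbar (p * (4 * M0))) = 4 ∨
      (FF Qbar (p * M0)).relfinrank (FF Qbar (p * (4 * M0))) = 6 := by
    rw [h3]
    rcases Level_psi (p * M0) hN0 with h | h
    · left
      rw [h, mul_comm] at h1
      exact Nat.eq_of_mul_eq_mul_right (Nat.pos_of_ne_zero h2) h1
    · right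
      rw [h, mul_comm] at h1
      exact Nat.eq_of_mul_eq_mul_right (Nat.pos_of_ne_zero h2) h1
  have h24 : (FF Qbar (p * M0)).relfinrank (FF Qbar (p * (4 * M0))) ∣ 24 := by
    rcases h4 with h | h <;> rw [h] <;> norm_num
  apply Nat.Coprime.coprime_dvd_left h24
  rw [Nat.coprime_comm, Nat.Prime.coprime_iff_not_dvd hp]
  intro h
  have h5 : p ∣ 2 ^ 3 * 3 := by norm_num; exact h
  rcases hp.dvd_mul.1 h5 with h6 | h6
  · have := (Nat.prime_dvd_prime_iff_eq hp Nat.prime_two).1 (hp.dvd_of_dvd_pow h6)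
    omega
  · have := (Nat.prime_dvd_prime_iff_eq hp Nat.prime_three).1 h6
    omega

theorem kummerEquiv_one_descend (hp : p.Prime) (hp5 : 5 ≤ p) (hM0 : M0 ≠ 0)
    {u : LaurentSeries Qbar} (hu : u ∈ FF Qbar (p * M0)) (hu0 : u ≠ 0)
    (h : KummerEquiv (p * (4 * M0)) p 1 u) : KummerEquiv (p * M0) p 1 u := by
  have hN0 : p * M0 ≠ 0 := mul_ne_zero hp.ne_zero hM0
  have : NeZero (p * M0) := ⟨hN0⟩
  have : NeZero (p * (4 * M0)) := ⟨mul_ne_zero hp.ne_zero (mul_ne_zero (by norm_num) hM0)⟩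
  have hfin := GT.Brg.relfinrank_FF_ne_zero (dvd_aux p M0)
  obtain ⟨z, hz, hz0, hzu⟩ := h
  rw [one_mul] at hzu
  obtain ⟨y, hy, hy0, hyu⟩ := GT.Brg.pow_descent_norm (FF_le_aux p M0) hfin p u z hu hz hz0 hzu
  have hcop : ((FF Qbar (p * M0)).relfinrank (FF Qbar (p * (4 * M0)))).Coprime p :=
    Level_coprime hp hp5 hM0
  obtain ⟨m, -, hm⟩ := Nat.exists_mul_mod_eq_one_of_coprime hcop hp.one_lt
  set d := (FF Qbar (p * M0)).relfinrank (FF Qbar (p * (4 * M0))) with hd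
  have hdm : d * m = 1 + p * (d * m / p) := by
    have := Nat.mod_add_div (d * m) p
    rw [hm] at this
    exact this.symm
  set k := d * m / p with hk
  refine ⟨y ^ m / u ^ k, div_mem (pow_mem hy m) (pow_mem hu k),
    div_ne_zero (pow_ne_zero _ hy0) (pow_ne_zero _ hu0), ?_⟩
  rw [one_mul, div_pow, ← pow_mul, mul_comm m p, pow_mul, ← hyu, ← pow_mul, hdm, ← pow_mul,
    mul_comm k p, pow_add, pow_one]
  field_simp

theorem wQ_aux (hp : p.Prime) (hM0 : M0 ≠ 0) (hpM : ¬ p ∣ M0)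
    {w : FF Qbar (p * M0) ≃ₐ[Qbar] FF Qbar (p * M0)} (hw : GS.IsWQ Qbar p M0 w)
    {w1 : FF Qbar (p * (4 * M0)) ≃ₐ[Qbar] FF Qbar (p * (4 * M0))}
    (hw1 : GS.IsWQ Qbar p (4 * M0) w1) (y : FF Qbar (p * M0)) (y1 : FF Qbar (p * (4 * M0)))
    (h : (y1 : LaurentSeries Qbar) = y) :
    ((w1 y1 : FF Qbar (p * (4 * M0))) : LaurentSeries Qbar) = (w y : FF Qbar (p * M0)) := by
  have hN0 : p * M0 ≠ 0 := mul_ne_zero hp.ne_zero hM0
  have : NeZero (p * M0) := ⟨hN0⟩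
  have : NeZero (p * (4 * M0)) := ⟨mul_ne_zero hp.ne_zero (mul_ne_zero (by norm_num) hM0)⟩
  have hdvd := dvd_aux p M0
  have hle := FF_le_aux p M0
  let f₁ : FF Qbar (p * M0) →ₐ[Qbar] LaurentSeries Qbar :=
    (FF Qbar (p * M0)).val.comp (w : FF Qbar (p * M0) →ₐ[Qbar] FF Qbar (p * M0))
  let f₂ : FF Qbar (p * M0) →ₐ[Qbar] LaurentSeries Qbar :=
    (FF Qbar (p * (4 * M0))).val.comp
      ((w1 : FF Qbar (p * (4 * M0)) →ₐ[Qbar] FF Qbar (p * (4 * M0))).comp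
        (IntermediateField.inclusion hle))
  have hf : f₁ = f₂ := by
    refine GT.EMB.algHom_ext_gen (p * M0) f₁ f₂ fun d hd => ?_
    show ((w (GT.EMB.gen Qbar (p * M0) d hd) : FF Qbar (p * M0)) : LaurentSeries Qbar) =
      ((w1 (IntermediateField.inclusion hle (GT.EMB.gen Qbar (p * M0) d hd)) :
        FF Qbar (p * (4 * M0))) : LaurentSeries Qbar)
    obtain ⟨a, b, ha, hb, rfl⟩ := GT.EMB.ALIdx_exists_mul hd
    obtain ⟨c, hc⟩ := ha
    have ha0 : a ≠ 0 := fun h0 => hp.ne_zero (by rw [hc, h0, zero_mul])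
    have hc0 : c ≠ 0 := fun h0 => hp.ne_zero (by rw [hc, h0, mul_zero])
    have hb0 : b ≠ 0 := fun h0 => hM0 (by
      rw [h0] at hb; exact Nat.eq_zero_of_zero_dvd hb)
    have : NeZero (a * b) := ⟨mul_ne_zero ha0 hb0⟩
    have : NeZero (c * b) := ⟨mul_ne_zero hc0 hb0⟩
    rw [hw a c b hc.symm hb _ (by rw [GT.EMB.coe_gen, GT.EMB.jd_eq]),
      hw1 a c b hc.symm (hb.trans (Dvd.intro_left 4 rfl)) _ (by
        rw [IntermediateField.coe_inclusion, GT.EMB.coe_gen, GT.EMB.jd_eq])]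
  have hy' : y1 = IntermediateField.inclusion hle y := Subtype.ext h
  rw [hy']
  exact (congrArg (fun f : FF Qbar (p * M0) →ₐ[Qbar] LaurentSeries Qbar => f y) hf).symm

/-- `GT.EMB.wQ`, `GS.isWQ_wQ`, `GS.nonempty_Qbar_hom`. -/
theorem exists_isWQ (hp : p.Prime) (hM0 : M0 ≠ 0) (hpM : ¬ p ∣ M0) :
    ∃ w : FF Qbar (p * M0) ≃ₐ[Qbar] FF Qbar (p * M0), GS.IsWQ Qbar p M0 w := by
  have : NeZero (p * M0) := ⟨mul_ne_zero hp.ne_zero hM0⟩
  obtain ⟨ι⟩ := GS.nonempty_Qbar_hom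
  exact ⟨GT.EMB.wQ Qbar p M0, GS.isWQ_wQ ι ((Nat.Prime.coprime_iff_not_dvd hp).2 hpM)⟩

end Fermat.Agent.LP.Top
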