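import Mathlib

/-!
# LP-TOP, file `Lin`: the linear algebra on `E[p]` (pure Mathlib)

`T` of cardinality `p ^ 2` over `ZMod p`, `V'` a subspace, `s` an endomorphism with `det s = c`,
`c ≠ 0, 1`, `s = 1` on `T / V'`, `s = c` on `V'`.  Then `V'` is a line.

Proof.  `finrank T = 2` (`Module.natCard_eq_pow_finrank`, `Nat.card_zmod`).  `V' = ⊥`: `s = 1`, `det = 1`.
`V' = ⊤`: `s = c • 1`, `det = c ^ 2` (`LinearMap.det_smul`), so `c = 0` or `c = 1`.  Otherwise
`finrank V' = 1` (`finrank_eq_one_iff'`) and `V' ≠ ⊤` gives `x2`.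
-/

set_option autoImplicit false

namespace Fermat.Agent.LP.Top

theorem exists_line {p : ℕ} [Fact p.Prime] {T : Type*} [AddCommGroup T] [Module (ZMod p) T]
    (hcard : Nat.card T = p ^ 2) (V' : Submodule (ZMod p) T) (s : T →ₗ[ZMod p] T) (c : ZMod p)
    (hc1 : c ≠ 1) (hc0 : c ≠ 0) (hdet : LinearMap.det s = c) (ha : ∀ x, s x - x ∈ V')
    (hb : ∀ x ∈ V', s x = c • x) :
    ∃ x1 x2 : T, x1 ≠ 0 ∧ x1 ∈ V' ∧ x2 ∉ V' ∧ ∀ x ∈ V', ∃ k : ZMod p, x = k • x1 := by
  have hp : 1 < p := (Fact.out : p.Prime).one_lt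
  haveI : Finite T := Nat.finite_of_card_ne_zero (by rw [hcard]; positivity)
  haveI : Module.Finite (ZMod p) T := Module.Finite.of_finite
  have hfr : Module.finrank (ZMod p) T = 2 := by
    have h := Module.natCard_eq_pow_finrank (K := ZMod p) (V := T)
    rw [hcard, Nat.card_zmod] at h
    exact (Nat.pow_right_injective hp h).symm
  have hbot : V' ≠ ⊥ := by
    intro h
    apply hc1
    have hs : s = LinearMap.id := by
      ext x
      have := ha x
      rw [h, Submodule.mem_bot, sub_eq_zero] at this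
      simpa using this
    rw [← hdet, hs, LinearMap.det_id]
  have htop : V' ≠ ⊤ := by
    intro h
    have hs : s = c • LinearMap.id := by
      ext x
      have := hb x (by rw [h]; trivial)
      simpa using this
    have h2 : c ^ 2 = c := by
      have := hdet
      rw [hs, LinearMap.det_smul, hfr, LinearMap.det_id, mul_one] at this
      exact this
    have h3 : c * (c - 1) = 0 := by linear_combination h2
    rcases mul_eq_zero.1 h3 with h4 | h4
    · exact hc0 h4
    · exact hc1 (sub_eq_zero.1 h4)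
  have hlt : Module.finrank (ZMod p) V' < 2 := by
    rw [← hfr]
    exact Submodule.finrank_lt htop
  have hpos : 0 < Module.finrank (ZMod p) V' := by
    rw [Module.finrank_pos_iff_exists_ne_zero]
    obtain ⟨x, hx, hx0⟩ := Submodule.exists_mem_ne_zero_of_ne_bot hbot
    exact ⟨⟨x, hx⟩, fun h => hx0 (congrArg Subtype.val h)⟩
  have h1 : Module.finrank (ZMod p) V' = 1 := by omega
  obtain ⟨v, hv0, hv⟩ := finrank_eq_one_iff'.1 h1
  obtain ⟨x2, -, hx2⟩ := SetLike.exists_of_lt (lt_top_iff_ne_top.2 htop)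
  refine ⟨v.1, x2, fun h => hv0 (Subtype.ext h), v.2, hx2, fun x hx => ?_⟩
  obtain ⟨k, hk⟩ := hv ⟨x, hx⟩
  exact ⟨k, (congrArg Subtype.val hk).symm⟩

end Fermat.Agent.LP.Top
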