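import Fermat.Agent.LP.Iface
import Fermat.Agent.LP.EIS.VDefs

/-!
# LP-TOP, file `PDiv`: calculus of `PDivAt` (pure valuation subrings)

All proofs: unfold `PDivAt`, multiply the witnesses (`V.mul_mem`, `mul_inv`, `mul_pow`).
-/

set_option autoImplicit false

namespace Fermat.Agent.LP

variable {F : Type*} [Field F] {V : ValuationSubring F} {p : ℕ}

theorem PDivAt.mul {x y : F} (hx : PDivAt V p x) (hy : PDivAt V p y) : PDivAt V p (x * y) :=
  EIS.VDiv.mul hx hy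

theorem PDivAt.inv {x : F} (hx : PDivAt V p x) : PDivAt V p x⁻¹ :=
  EIS.VDiv.inv hx

theorem PDivAt.div {x y : F} (hx : PDivAt V p x) (hy : PDivAt V p y) : PDivAt V p (x / y) := by
  rw [div_eq_mul_inv]
  exact hx.mul hy.inv

theorem PDivAt.pow {x : F} (hx : PDivAt V p x) (n : ℕ) : PDivAt V p (x ^ n) :=
  EIS.VDiv.pow hx n

/-- witness `a = x⁻¹` (`x = 0`: witness `1`). -/
theorem pDivAt_pow_self (x : F) : PDivAt V p (x ^ p) :=
  EIS.vdiv_pow_self V p x

theorem pDivAt_pow_of_dvd (x : F) {r : ℕ} (h : p ∣ r) : PDivAt V p (x ^ r) := by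
  obtain ⟨k, rfl⟩ := h
  rw [pow_mul]
  exact (pDivAt_pow_self x).pow k

/-- Bezout: `x = (x ^ m) ^ a * (x ^ p) ^ b` with `m a + p b = 1` in `ℤ` (use `zpow`, or natural
numbers `a, b` with `m a = 1 + p b`: `Nat.exists_mul_emod_eq_one_of_coprime`). -/
theorem PDivAt.of_pow {x : F} {m : ℕ} (hm : Nat.Coprime m p) (hx : PDivAt V p (x ^ m)) :
    PDivAt V p x := by
  by_cases hx0 : x = 0
  · subst hx0
    exact ⟨1, one_ne_zero, by simp, by simp⟩
  have hb : (1 : ℤ) = m * Nat.gcdA m p + p * Nat.gcdB m p := by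
    have := Nat.gcd_eq_gcd_ab m p
    rw [hm] at this
    exact_mod_cast this
  have e : x = (x ^ m) ^ (Nat.gcdA m p) * (x ^ p) ^ (Nat.gcdB m p) := by
    rw [← zpow_natCast x m, ← zpow_natCast x p, ← zpow_mul, ← zpow_mul, ← zpow_add₀ hx0, ← hb,
      zpow_one]
  rw [e]
  exact PDivAt.mul (EIS.VDiv.zpow hx _) (EIS.VDiv.zpow (pDivAt_pow_self x) _)

/-- what LP-TOP uses. -/
theorem PDivAt.of_div_pow {u d : F} {r : ℕ} (hp : Nat.Coprime 12 p) (hd0 : d ≠ 0)
    (h : PDivAt V p (u ^ 12 / d ^ r)) (hd : PDivAt V p (d ^ r)) : PDivAt V p u := by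
  apply PDivAt.of_pow hp
  have := h.mul hd
  rwa [div_mul_cancel₀ _ (pow_ne_zero r hd0)] at this

end Fermat.Agent.LP
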