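import Fermat.Agent.LP.Top.Emb
import Fermat.Agent.LP.Top.Level
import Fermat.Agent.S13.FreyFacts

/-!
# LP-TOP, file `Peu`: `PeuAt` for `u_i = Φ x_i` from `FreyOut`; `Δ(W) ≠ 0`

* `peuAt` : take a primitive `p`-th root of unity `ζ` (`HasEnoughRootsOfUnity.exists_primitiveRoot Qbar p`).  Apply `FreyOut`
  to `y`.  For `σ ∈ I` with `σ ζ = ζ` which fixes all `Q` with `p • Q = 0`: every `μ` with `μ ^ p = 1` is a power of
  `ζ` (`IsPrimitiveRoot.eq_pow_of_pow_eq_one`), so `σ μ = μ`; `σ • x_i = x_i` (`Subtype.ext`; `x_i.2` and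
  `Submodule.mem_torsionBy_iff`; `(p : ℤ) • Q = p • Q`: `natCast_zsmul`); `KumEmb.equiv σ x_i` then reads
  `Φ x_i ~ gal σ (Φ x_i)` at level `p * M0`; `kummerEquiv_aux`.
* `delta_ne_zero` : `hW : ∃ C, C • E = W.map (Int.castRingHom ℚ)`; `WeierstrassCurve.variableChange_Δ`, `map_Δ`;
  `Δ(freyCurve) ≠ 0` (search the Prelude / `S05`, `S13`, `LP/Frey` for the discriminant of the Frey curve:
  `Δ = 16 (a b c) ^ (2 p)` up to normalisation; `P.ha0, P.hb0, P.hc0`).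
-/

set_option autoImplicit false
set_option synthInstance.maxHeartbeats 400000

noncomputable section

namespace Fermat.Agent.LP.Top

open Fermat.Agent.GR ModularCurve
open Fermat.Agent.GR.H (GQ)
open WeierstrassCurve WeierstrassCurve.Affine WeierstrassCurve.Affine.Point

theorem peuAt (hFrey : FreyOut) (P : FreyPackage) (hpabc : (P.p : ℤ) ∣ P.a * P.b * P.c)
    {A : ValuationSubring Qbar} (hA : A.LiesOverPrime P.p) {M0 : ℕ} {S0 : Set ℕ} {a : ℕ → ℤ}
    {Φ : Gal.Tor P.freyCurve P.p → LaurentSeries Qbar}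
    (hΦ : KumEmb P.freyCurve P.p (P.p * M0) S0 a Φ) (x1 x2 : Gal.Tor P.freyCurve P.p) :
    PeuAt (P.p * (4 * M0)) P.p A (Φ x1) (Φ x2) := by
  intro y hy0 hyp hyE
  haveI : NeZero ((P.p : ℕ) : Qbar) := ⟨by exact_mod_cast P.pp.ne_zero⟩
  haveI : NeZero P.p := ⟨P.pp.ne_zero⟩
  obtain ⟨ζ, hζ⟩ := HasEnoughRootsOfUnity.exists_primitiveRoot Qbar P.p
  refine hFrey P hpabc A hA ζ hζ y hy0 hyp ?_
  intro σ hσ hσζ hσQ
  have key : ∀ x : Gal.Tor P.freyCurve P.p,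
      KummerEquiv (P.p * (4 * M0)) P.p (Φ x) (gal σ (Φ x)) := by
    intro x
    have hx : P.p • (x : (P.freyCurve⁄(AlgebraicClosure ℚ)).Point) = 0 := by
      have h1 := (Submodule.mem_torsionBy_iff _ _).1 x.2
      rwa [natCast_zsmul] at h1
    have h1 : σ • x = x := Subtype.ext (hσQ _ hx)
    have h2 := hΦ.equiv σ x
    rw [h1] at h2
    exact kummerEquiv_aux h2
  refine hyE σ hσ ?_ (key x1) (key x2)
  intro μ hμ
  obtain ⟨i, _, rfl⟩ := hζ.eq_pow_of_pow_eq_one hμ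
  rw [map_pow, hσζ]

theorem delta_ne_zero (P : FreyPackage) (W : WeierstrassCurve ℤ)
    (hW : W.IsIntegralModelOf P.freyCurve) : W.Δ ≠ 0 := by
  obtain ⟨C, hC⟩ := hW
  intro h0
  have h1 := congrArg WeierstrassCurve.Δ hC
  rw [WeierstrassCurve.variableChange_Δ, WeierstrassCurve.map_Δ, h0, _root_.map_zero] at h1
  rcases mul_eq_zero.1 h1 with h | h
  · exact (pow_ne_zero 12 (Units.ne_zero C.u⁻¹)) h
  · exact Fermat.Agent.S13.frey_Δ_ne_zero P h

end Fermat.Agent.LP.Top
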