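import Fermat.Agent.LP.Top.Struct
import Fermat.Agent.LP.Top.PDiv
import Fermat.Agent.LP.Top.Level
import Fermat.Agent.LP.Top.Peu
import Fermat.Agent.LP.EIS.Eis
import Fermat.Agent.LP.EIS.Mem
import Fermat.Agent.LP.EIS.Formal
import Fermat.Agent.GR.S.R.Gauss
import Fermat.Agent.GR.I.Level
import Fermat.Agent.Lib.Frobenius

/-!
# LP-TOP, file `Main`: S44 from the outputs of the modules (`LP/Iface.lean`)

* `hasChi_of_ctx` : STEPS 8-11 (Picard-Lefschetz at the auxiliary level, Eisenstein / old alternative).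
* `main` : S44.
-/

set_option autoImplicit false
set_option synthInstance.maxHeartbeats 400000
set_option maxHeartbeats 1000000

noncomputable section

open WeierstrassCurve WeierstrassCurve.Affine WeierstrassCurve.Affine.Point

namespace Fermat.Agent.LP.Top

open Fermat.Agent.GR ModularCurve
open Fermat.Agent.GR.H (GQ)

/-- The geometric inputs at all `(p, M0, A)`. -/
structure GeoAll : Prop where
  nod : ∀ (p M0 : ℕ) (A : ValuationSubring Qbar), p.Prime → 5 ≤ p → M0 ≠ 0 → ¬ p ∣ M0 →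
    A.LiesOverPrime p → NodalInertiaP p M0 A
  pl : ∀ (p : ℕ) [NeZero p] (M0 : ℕ) (A : ValuationSubring Qbar), p.Prime → 5 ≤ p → M0 ≠ 0 →
    ¬ p ∣ M0 → A.LiesOverPrime p → PLOut p M0 A
  eis : ∀ (p : ℕ) [NeZero p] (M0 : ℕ) (A : ValuationSubring Qbar), p.Prime → 5 ≤ p → M0 ≠ 0 →
    ¬ p ∣ M0 → A.LiesOverPrime p → EisOut p M0 A
  old : ∀ (p M0 : ℕ) [NeZero M0] (A : ValuationSubring Qbar), p.Prime → 5 ≤ p →
    ¬ p ∣ M0 → A.LiesOverPrime p → OldOut p M0 A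

theorem mem_exc_of_dvd {W : WeierstrassCurve ℤ} {p M0 ℓ : ℕ} (hM0 : M0 ≠ 0) (hℓ : ℓ.Prime)
    (h : ℓ ∣ p * (4 * M0)) (hp : p.Prime) : ℓ ∈ exc W p M0 := by
  unfold exc
  rw [Finset.mem_union]
  rcases (Nat.Prime.dvd_mul hℓ).1 h with h1 | h1
  · left
    rw [(Nat.prime_dvd_prime_iff_eq hℓ hp).1 h1]
    exact Gal.mem_badSet_self W p
  · rcases (Nat.Prime.dvd_mul hℓ).1 h1 with h2 | h2
    · left
      have h3 : ℓ ∣ 2 ^ 2 := by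
        norm_num
        exact h2
      rw [(Nat.prime_dvd_prime_iff_eq hℓ Nat.prime_two).1 (hℓ.dvd_of_dvd_pow h3)]
      simp [Gal.badSet]
    · right
      exact Nat.mem_primeFactors.2 ⟨hℓ, h2, hM0⟩

/-- `U_p ^ 2 = 1` on the image of `Φ`. -/
theorem Ctx.sq {P : FreyPackage} [NeZero P.p] {M0 : ℕ} {A : ValuationSubring Qbar} {S0 : Set ℕ}
    {a : ℕ → ℤ} {w : FF Qbar (P.p * M0) ≃ₐ[Qbar] FF Qbar (P.p * M0)} {ζ : Qbarˣ}
    {Φ : Gal.Tor P.freyCurve P.p → LaurentSeries Qbar} {s : ℕ}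
    (C : Ctx P M0 A S0 a w ζ Φ s) (x : Gal.Tor P.freyCurve P.p) :
    KummerEquiv (P.p * M0) P.p (normT P.p ζ (normT P.p ζ (Φ x))) (Φ x) := by
  have := C.neZero
  have hy := C.emb.kummer x
  have hwy := C.kummer_w x
  exact S33.ND.sq_equiv (Dvd.intro _ rfl) P.p ζ C.hζ hwy.mem hwy.ne_zero hy.mem hy.ne_zero
    (C.pop1 x) (C.norm (C.el x) (C.emb.kummer x) (C.emb.eig x))

/-- **STEPS 8-11.** -/
theorem hasChi_of_ctx {P : FreyPackage} [NeZero P.p] {M0 : ℕ} [NeZero M0]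
    {A : ValuationSubring Qbar} {S0 : Finset ℕ} {a : ℕ → ℤ}
    {w : FF Qbar (P.p * M0) ≃ₐ[Qbar] FF Qbar (P.p * M0)}
    {Φ : Gal.Tor P.freyCurve P.p → LaurentSeries Qbar} {s : ℕ}
    (C' : ∀ ζ : Qbarˣ, IsPrimitiveRoot ζ P.p → Ctx P M0 A (S0 : Set ℕ) a w ζ Φ s) (hFrey : FreyOut)
    (hPL : PLOut P.p M0 A) (hEis : EisOut P.p M0 A) (hOld : OldOut P.p M0 A)
    (hS1 : ∀ ℓ : ℕ, ℓ.Prime → ℓ ∣ P.p * (4 * M0) → ℓ ∈ S0)
    (hne : ¬ ∀ ℓ : ℕ, ℓ.Prime → ℓ ∉ S0 → (P.p : ℤ) ∣ a ℓ - ((ℓ : ℤ) + 1)) :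
    HasChi P.p M0 (S0 : Set ℕ) a := by
  obtain ⟨ζ, hζ⟩ := GR.I.KummerData.exists_primitiveRoot P.p
  have C := C' ζ hζ
  obtain ⟨c1, c2, hd1, hd2, hn1, hi1, hi2, -, hnt⟩ := C.main
  have hp := P.pp
  have hp5 := P.hp5
  have hM0 := C.hM0
  have : Fact P.p.Prime := ⟨hp⟩
  obtain ⟨𝒪, h𝒪⟩ := GR.S.R.exists_isGaussRing A (P.p * (4 * M0))
  have hp4 : ¬ P.p ∣ 4 := by
    intro h
    have := Nat.le_of_dvd (by norm_num) h
    omega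
  have hpM4 : ¬ P.p ∣ 4 * M0 := fun h => (hp.dvd_mul.1 h).elim hp4 C.hpM
  obtain ⟨w1, hw1⟩ := exists_isWQ hp (mul_ne_zero four_ne_zero hM0) hpM4
  set u1 : FF Qbar (P.p * (4 * M0)) := ⟨Φ c1, FF_le_aux _ _ (C.emb.mem c1)⟩ with hu1
  set u2 : FF Qbar (P.p * (4 * M0)) := ⟨Φ c2, FF_le_aux _ _ (C.emb.mem c2)⟩ with hu2
  set dd : FF Qbar (P.p * (4 * M0)) :=
    ⟨EIS.dS Qbar P.p, EIS.dS_mem_FF P.p Qbar (Dvd.intro _ rfl)⟩ with hdd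
  set jj : FF Qbar (P.p * (4 * M0)) := GR.C.jF Qbar (P.p * (4 * M0)) with hjj
  have hdd0 : dd ≠ 0 := fun h => EIS.dS_ne_zero (Λ := Qbar) P.p (congrArg Subtype.val h)
  have hu20 : u2 ≠ 0 := fun h => C.emb.ne_zero c2 (congrArg Subtype.val h)
  have hw1u : ((w1 u1 : FF Qbar (P.p * (4 * M0))) : LaurentSeries Qbar) =
      (w (C.el c1) : FF Qbar (P.p * M0)) := wQ_aux hp hM0 C.hpM C.hw hw1 (C.el c1) u1 rfl
  obtain ⟨r, hr1, hr2⟩ := hPL 𝒪 h𝒪 w1 hw1 u1 u2 dd jj rfl rfl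
    (isKummer_aux hp.ne_zero hM0 (C.emb.kummer c1)) (isKummer_aux hp.ne_zero hM0 (C.emb.kummer c2))
    (deepAt_aux hd1) (by rw [hw1u]; exact deepAt_aux hd2)
    (fun h => hn1 (kummerEquiv_one_descend hp hp5 hM0 (C.emb.mem c1) (C.emb.ne_zero c1) h))
    (fun σ hσ c hc => kummerEquiv_aux (hi1 σ hσ c hc))
    (fun σ hσ => (hi2 σ hσ).imp fun b hb => kummerEquiv_aux hb)
    (peuAt hFrey P C.hpabc C.hA C.emb c1 c2)
  have hcop12 : Nat.Coprime 12 P.p := by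
    rw [Nat.coprime_comm, Nat.Prime.coprime_iff_not_dvd hp]
    intro h
    have h1 : P.p ∣ 2 ^ 2 * 3 := by
      norm_num
      exact h
    rcases hp.dvd_mul.1 h1 with h2 | h2
    · have := Nat.le_of_dvd (by norm_num) (hp.dvd_of_dvd_pow h2)
      omega
    · have := Nat.le_of_dvd (by norm_num) h2
      omega
  by_cases hall : ∀ V : ValuationSubring (FF Qbar (P.p * (4 * M0))), V ≤ 𝒪 → jj ∈ V →
      PDivAt V P.p (dd ^ r)
  · refine hOld 𝒪 h𝒪 S0 a hS1 u2 (C.emb.kummer c2) (C.emb.eig c2) hnt ?_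
    intro V hV
    by_cases hj : jj ∈ V
    · exact PDivAt.of_div_pow hcop12 hdd0 (hr1 V hV hj) (hall V hV hj)
    · exact hr2 V hV hj
  · exfalso
    push Not at hall
    obtain ⟨V, hV, hj, hnd⟩ := hall
    have hpr : ¬ P.p ∣ r := fun h => hnd (pDivAt_pow_of_dvd dd h)
    have hnd' : ¬ PDivAt V P.p dd := fun h => hnd (h.pow r)
    apply hne
    intro ℓ hℓ hℓS
    have : NeZero ℓ := ⟨hℓ.ne_zero⟩
    obtain ⟨ζℓ, hζℓ⟩ := GR.I.KummerData.exists_primitiveRoot ℓ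
    set e : ℕ := ((a ℓ : ZMod P.p)).val with he
    have he' : (e : ZMod P.p) = (a ℓ : ZMod P.p) := ZMod.natCast_zmod_val _
    have hT := C.emb.eig c2 ℓ ζℓ hℓ (fun h => hℓS (Finset.mem_coe.1 h)) hζℓ e he'
    have h1 := hEis 𝒪 h𝒪 u2 dd jj rfl rfl hu20 r hr1 ⟨V, hV, hj, hnd'⟩ ℓ ζℓ hℓ
      (fun h => hℓS (hS1 ℓ hℓ h)) hζℓ e (kummerEquiv_aux hT)
    have h2 : (P.p : ℤ) ∣ (ℓ : ℤ) + 1 - e :=
      ((Nat.prime_iff_prime_int.mp hp).dvd_or_dvd h1).resolve_left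
        (fun h => hpr (Int.natCast_dvd_natCast.1 h))
    have h3 : (P.p : ℤ) ∣ a ℓ - e := by
      rw [← ZMod.intCast_eq_intCast_iff_dvd_sub]
      push_cast
      exact he'
    have h4 := dvd_sub h3 h2
    have h5 : a ℓ - (e : ℤ) - ((ℓ : ℤ) + 1 - e) = a ℓ - ((ℓ : ℤ) + 1) := by ring
    rwa [h5] at h4

theorem main (hGal : GalOut) (hTor : TorAll) (hNew : NewOut) (hFin : FinOut) (hFrey : FreyOut)
    (hGeo : GeoAll) (P : FreyPackage) {N : ℕ} (hcond : P.IsConductorLevel N) (hpN : P.p ∣ N)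
    (hirr : GaloisRepIsIrreducible (K := AlgebraicClosure ℚ) ℚ P.freyCurve P.p)
    (hmod : P.ModularRepOfLevel N) : ∃ M : ℕ, M ∣ N ∧ ¬ P.p ∣ M ∧ P.ModularRepOfLevel M := by
  obtain ⟨M0, rfl⟩ := hpN
  have hp := P.pp
  have hp5 := P.hp5
  have : Fact P.p.Prime := ⟨hp⟩
  have : NeZero P.p := ⟨hp.ne_zero⟩
  have hM0 : M0 ≠ 0 := by
    rintro rfl
    exact absurd hcond.pos (by simp)
  have : NeZero M0 := ⟨hM0⟩
  have : NeZero (P.p * M0) := ⟨mul_ne_zero hp.ne_zero hM0⟩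
  have hpM : ¬ P.p ∣ M0 := by
    rintro ⟨k, rfl⟩
    exact hcond.sq_not_dvd hp ⟨k, by ring⟩
  refine ⟨M0, Dvd.intro_left _ rfl, hpM, ?_⟩
  obtain ⟨f, W, 𝔪, hf, hW, hm, hpm, hcong⟩ := hmod
  have hΔ : W.Δ ≠ 0 := delta_ne_zero P W hW
  apply hFin P M0 W hW
  by_contra hχ
  obtain ⟨A, hA⟩ := Lib.Frobenius.exists_liesOverPrime (K := Qbar) P.p hp
  obtain ⟨w, hw⟩ := exists_isWQ hp hM0 hpM
  obtain ⟨Φ, s, hemb, -, hsign⟩ := hGal P.p M0 hp5 hpM P.freyCurve hirr W hΔ hW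
    ⟨f, 𝔪, hf, hm, hpm, hcong⟩ w hw
  have hT := hTor P.p hp5 P.freyCurve hirr W hΔ hW
  have hS1 : ∀ ℓ : ℕ, ℓ.Prime → ℓ ∣ P.p * (4 * M0) → ℓ ∈ exc W P.p M0 :=
    fun ℓ hℓ h => mem_exc_of_dvd hM0 hℓ h hp
  have hS0 : ∀ ℓ : ℕ, ℓ.Prime → ℓ ∣ P.p * M0 → ℓ ∈ exc W P.p M0 :=
    fun ℓ hℓ h => hS1 ℓ hℓ (h.trans (dvd_aux P.p M0))
  have C : ∀ ζ : Qbarˣ, IsPrimitiveRoot ζ P.p →
      Ctx P M0 A (exc W P.p M0 : Set ℕ) W.apOfModel w ζ Φ s := fun ζ hζ =>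
    { hM0 := hM0
      hpM := hpM
      hpabc := hcond.p_dvd_abc (Dvd.intro _ rfl)
      hA := hA
      hS0 := fun ℓ hℓ h => Finset.mem_coe.2 (hS0 ℓ hℓ h)
      hw := hw
      hζ := hζ
      emb := hemb
      sign := hsign
      norm := fun y hy he => hNew P.p M0 hp hp5 hpM (exc W P.p M0) W.apOfModel hS0 hχ w hw ζ hζ y hy he
      nod := S33.ND.nodalOrd hp hM0 hpM hA (hGeo.nod P.p M0 A hp hp5 hM0 hpM hA)
      card := hT.card }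
  refine hχ (hasChi_of_ctx C hFrey (hGeo.pl P.p M0 A hp hp5 hM0 hpM hA)
    (hGeo.eis P.p M0 A hp hp5 hM0 hpM hA) (hGeo.old P.p M0 A hp hp5 hpM hA) hS1 ?_)
  intro heis
  refine EIS.not_irreducible_of_eisenstein P.freyCurve P.p hT.card (exc W P.p M0) ?_ W.apOfModel ?_ heis hirr
  · exact Finset.mem_union_left _ (Gal.mem_badSet_self W P.p)
  · intro ℓ hℓ hℓS B σ hB hσ x
    exact hT.frob ℓ hℓ (fun h => hℓS (Finset.mem_union_left _ h)) B σ hB hσ x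

end Fermat.Agent.LP.Top
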