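import Fermat.Agent.LP.Top.ESide
import Fermat.Agent.LP.Top.Kum
import Fermat.Agent.LP.Top.Card
import Fermat.Agent.LP.Frey.Out
import Fermat.Agent.S33.Wire.Triv
import Fermat.Agent.S33.ND.Nodal

/-!
# LP-TOP (S): STEPS 2-7 of the blueprint at level `N = p * M0`

`Ctx` collects what LP-GAL, LP-NEW and S33-ND/LP-NOD give.  Output (`Ctx.main`): points `c1, c2` of `E[p]`
such that `u1 = Φ c1`, `u2 = Φ c2` satisfy all hypotheses of `PLOut` (at level `N`), and `u2` is not trivial at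
the Gauss valuation.
-/

set_option autoImplicit false

noncomputable section

namespace Fermat.Agent.LP.Top

open WeierstrassCurve WeierstrassCurve.Affine WeierstrassCurve.Affine.Point
open Fermat.Agent.GR Fermat.Agent.GS ModularCurve
open Fermat.Agent.S05 Fermat.Agent.S13 Fermat.Agent.LP.Frey
open Fermat.Agent.GR.H (GQ)

/-- the situation at level `N = p * M0` -/
structure Ctx (P : FreyPackage) [NeZero P.p] (M0 : ℕ) (A : ValuationSubring Qbar) (S0 : Set ℕ)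
    (a : ℕ → ℤ) (w : FF Qbar (P.p * M0) ≃ₐ[Qbar] FF Qbar (P.p * M0)) (ζ : Qbarˣ)
    (Φ : Gal.Tor P.freyCurve P.p → LaurentSeries Qbar) (s : ℕ) : Prop where
  hM0 : M0 ≠ 0
  hpM : ¬ P.p ∣ M0
  hpabc : (P.p : ℤ) ∣ P.a * P.b * P.c
  hA : A.LiesOverPrime P.p
  hS0 : ∀ ℓ : ℕ, ℓ.Prime → ℓ ∣ P.p * M0 → ℓ ∈ S0
  hw : IsWQ Qbar P.p M0 w
  hζ : IsPrimitiveRoot ζ P.p
  emb : KumEmb P.freyCurve P.p (P.p * M0) S0 a Φ
  sign : ∀ (x : Gal.Tor P.freyCurve P.p) (y : FF Qbar (P.p * M0)), (y : LaurentSeries Qbar) = Φ x →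
    KummerEquiv (P.p * M0) P.p ((y : LaurentSeries Qbar) ^ s) (w y : FF Qbar (P.p * M0))
  norm : ∀ y : FF Qbar (P.p * M0), IsKummer (N := P.p * M0) P.p (y : LaurentSeries Qbar) →
    IsEig (P.p * M0) P.p S0 a y → KummerEquiv (P.p * M0) P.p 1
      ((y : LaurentSeries Qbar) * normT P.p ζ ((w y : FF Qbar (P.p * M0)) : LaurentSeries Qbar))
  nod : S33.NodalOrd P.p M0 A
  card : Nat.card (Gal.Tor P.freyCurve P.p) = P.p ^ 2

variable {P : FreyPackage} [NeZero P.p] {M0 : ℕ} {A : ValuationSubring Qbar} {S0 : Set ℕ}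
  {a : ℕ → ℤ} {w : FF Qbar (P.p * M0) ≃ₐ[Qbar] FF Qbar (P.p * M0)} {ζ : Qbarˣ}
  {Φ : Gal.Tor P.freyCurve P.p → LaurentSeries Qbar} {s : ℕ}

namespace Ctx

variable (C : Ctx P M0 A S0 a w ζ Φ s)
include C

/-- `Φ x` as an element of the function field -/
def el (x : Gal.Tor P.freyCurve P.p) : FF Qbar (P.p * M0) := ⟨Φ x, (C.emb.kummer x).mem⟩

@[simp] theorem coe_el (x : Gal.Tor P.freyCurve P.p) : ((C.el x : FF Qbar (P.p * M0)) :
    LaurentSeries Qbar) = Φ x := rfl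

theorem neZero : NeZero (P.p * M0) := ⟨mul_ne_zero P.pp.ne_zero C.hM0⟩

theorem cop : P.p.Coprime M0 := (Nat.Prime.coprime_iff_not_dvd P.pp).mpr C.hpM

theorem w_w (y : FF Qbar (P.p * M0)) : w (w y) = y := by
  have := C.neZero
  obtain ⟨ι⟩ := nonempty_Qbar_hom
  exact C.hw.invol ι C.cop y

theorem kummer_w (x : Gal.Tor P.freyCurve P.p) :
    IsKummer (N := P.p * M0) P.p ((w (C.el x) : FF Qbar (P.p * M0)) : LaurentSeries Qbar) :=
  FW.isKummer_algEquiv w (C.el x) (C.emb.kummer x)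

theorem eig_w (x : Gal.Tor P.freyCurve P.p) :
    IsEig (P.p * M0) P.p S0 a ((w (C.el x) : FF Qbar (P.p * M0)) : LaurentSeries Qbar) := by
  have := C.neZero
  exact IsEig.congr C.hS0 (C.sign x (C.el x) rfl) ((C.emb.eig x).pow s)

/-- `pop y = w y * U y ~ 1` -/
theorem pop1 (x : Gal.Tor P.freyCurve P.p) :
    KummerEquiv (P.p * M0) P.p 1 (S33.pop w ζ (C.el x)) := by
  have h := C.norm (w (C.el x)) (C.kummer_w x) (C.eig_w x)
  rw [C.w_w] at h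
  exact h

theorem pop2 (x : Gal.Tor P.freyCurve P.p) :
    KummerEquiv (P.p * M0) P.p 1 (S33.pop w ζ (w (C.el x))) := by
  have h := C.norm (C.el x) (C.emb.kummer x) (C.emb.eig x)
  unfold S33.pop
  rw [C.w_w]
  exact h

omit C in
theorem triv_pow {y : LaurentSeries Qbar} (h : TrivAt (P.p * M0) P.p A y) (k : ℕ) :
    TrivAt (P.p * M0) P.p A (y ^ k) := by
  induction k with
  | zero => rw [pow_zero]; exact S33.trivAt_one _ _ _
  | succ k ih => rw [pow_succ]; exact S33.trivAt_mul ih h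

theorem triv_w {x : Gal.Tor P.freyCurve P.p} (h : TrivAt (P.p * M0) P.p A (Φ x)) :
    TrivAt (P.p * M0) P.p A ((w (C.el x) : FF Qbar (P.p * M0)) : LaurentSeries Qbar) :=
  S33.trivAt_congr (triv_pow h s) (C.sign x (C.el x) rfl)

/-- STEP 4: trivial at the Gauss valuation ⟹ deep (as in `S33.ND.nodalOrd`) -/
theorem deep {x : Gal.Tor P.freyCurve P.p} (h : TrivAt (P.p * M0) P.p A (Φ x)) :
    DeepAt (P.p * M0) P.p A (Φ x) ∧
      DeepAt (P.p * M0) P.p A ((w (C.el x) : FF Qbar (P.p * M0)) : LaurentSeries Qbar) := by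
  have := C.neZero
  have : Fact P.p.Prime := ⟨P.pp⟩
  have hpN : P.p ∣ P.p * M0 := Dvd.intro _ rfl
  have hk1 : KummerEquiv (P.p * M0) P.p 1
      (((w (C.el x) : FF Qbar (P.p * M0)) : LaurentSeries Qbar) * normT P.p ζ (Φ x)) := C.pop1 x
  have hk2 : KummerEquiv (P.p * M0) P.p 1
      (Φ x * normT P.p ζ ((w (C.el x) : FF Qbar (P.p * M0)) : LaurentSeries Qbar)) :=
    C.norm (C.el x) (C.emb.kummer x) (C.emb.eig x)
  have hy := C.emb.kummer x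
  have hwy := C.kummer_w x
  have s1 := S33.ND.sq_equiv hpN P.p ζ C.hζ hwy.mem hwy.ne_zero hy.mem hy.ne_zero hk1 hk2
  have s2 := S33.ND.sq_equiv hpN P.p ζ C.hζ hy.mem hy.ne_zero hwy.mem hwy.ne_zero hk2 hk1
  obtain ⟨r1, hr1⟩ := Dep.exists_deepAt_iterate hpN C.hA ζ C.hζ h
  obtain ⟨r2, hr2⟩ := Dep.exists_deepAt_iterate hpN C.hA ζ C.hζ (C.triv_w h)
  exact ⟨Dep.DeepAt.congr (S33.ND.iterate_equiv hpN P.p ζ C.hζ s1 r1) (hr1 (2 * r1) (by omega)),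
    Dep.DeepAt.congr (S33.ND.iterate_equiv hpN P.p ζ C.hζ s2 r2) (hr2 (2 * r2) (by omega))⟩

/-- STEP 5: on the classes which are trivial at the Gauss valuation the inertia group acts through the
cyclotomic character -/
theorem inertia_of_triv {x : Gal.Tor P.freyCurve P.p} (h : TrivAt (P.p * M0) P.p A (Φ x))
    {τ : GQ} (hτ : τ ∈ A.inertiaSubgroupIn ℚ) {c : ℕ}
    (hc : ∀ μ : Qbar, μ ^ P.p = 1 → τ μ = μ ^ c) :
    KummerEquiv (P.p * M0) P.p (Φ x ^ c) (gal τ (Φ x)) :=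
  C.nod w C.hw ζ C.hζ (C.el x) (C.emb.kummer x) h (C.triv_w h) (C.pop1 x) (C.pop2 x) τ hτ c hc

/-- the points whose class is trivial at the Gauss valuation -/
def T : AddSubgroup (Pt P) where
  carrier := {Q | ∃ x : Gal.Tor P.freyCurve P.p, (x : Pt P) = Q ∧ TrivAt (P.p * M0) P.p A (Φ x)}
  add_mem' := by
    rintro _ _ ⟨x, rfl, hx⟩ ⟨y, rfl, hy⟩
    exact ⟨x + y, rfl, S33.trivAt_congr (S33.trivAt_mul hx hy) (C.emb.mul x y).symm⟩
  zero_mem' := ⟨0, rfl, S33.trivAt_congr (S33.trivAt_one _ _ _) C.emb.map_zero⟩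
  neg_mem' := by
    rintro _ ⟨x, rfl, hx⟩
    exact ⟨-x, rfl, S33.trivAt_congr (S33.trivAt_inv hx) (C.emb.map_neg x).symm⟩

theorem mem_T (x : Gal.Tor P.freyCurve P.p) :
    (x : Pt P) ∈ C.T ↔ TrivAt (P.p * M0) P.p A (Φ x) := by
  constructor
  · rintro ⟨y, hy, h⟩
    rwa [Subtype.ext hy] at h
  · intro h
    exact ⟨x, rfl, h⟩

/-- STEP 5: `V' = E[p] ∩ E₁` -/
theorem triv_iff (x : Gal.Tor P.freyCurve P.p) :
    TrivAt (P.p * M0) P.p A (Φ x) ↔ ((x : Pt P) = 0 ∨ xc (x : Pt P) ∉ A) := by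
  obtain ⟨N⟩ := exists_nodeData P C.hpabc A C.hA
  have hζ' : IsPrimitiveRoot (ζ : Qbar) P.p := IsPrimitiveRoot.coe_units_iff.mpr C.hζ
  rw [← C.mem_T]
  refine mem_iff_e1 N C.hA hζ' C.T ?_ ?_ (tors_nsmul P x)
  · intro σ hσ Q hQ
    set y : Gal.Tor P.freyCurve P.p := ⟨Q, (mem_tors_iff P Q).mpr hQ⟩ with hy
    have h1 : σ • Q - Q = ((σ • y - y : Gal.Tor P.freyCurve P.p) : Pt P) := rfl
    rw [h1, C.mem_T]
    have h2 := GS.trivAt_gal_div (A := A) (N := P.p * M0) P.pp.pos hσ (C.emb.kummer y).mem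
      (C.emb.kummer y).ne_zero
    refine S33.trivAt_congr h2 ?_
    exact (Kum_div (C.emb.equiv σ y).symm (KummerEquiv.refl _)).trans (C.emb.map_sub (σ • y) y).symm
  · rintro _ ⟨y, rfl, hy⟩ - τ hτ c hc
    have hc' : ∀ μ : Qbar, μ ^ P.p = 1 → τ μ = μ ^ c := by
      intro μ hμ
      have : NeZero P.p := ⟨P.pp.ne_zero⟩
      obtain ⟨i, -, rfl⟩ := hζ'.eq_pow_of_pow_eq_one hμ
      rw [map_pow, hc, ← pow_mul, ← pow_mul, mul_comm]
    have h1 := C.inertia_of_triv hy hτ hc'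
    have h2 : τ • y = c • y :=
      C.emb.eq_of_equiv ((C.emb.equiv τ y).trans (h1.symm.trans (C.emb.map_nsmul c y).symm))
    exact congrArg Subtype.val h2

/-- **STEPS 2-7.** -/
theorem main : ∃ c1 c2 : Gal.Tor P.freyCurve P.p,
    DeepAt (P.p * M0) P.p A (Φ c1) ∧
    DeepAt (P.p * M0) P.p A ((w (C.el c1) : FF Qbar (P.p * M0)) : LaurentSeries Qbar) ∧
    ¬ KummerEquiv (P.p * M0) P.p 1 (Φ c1) ∧
    (∀ σ ∈ A.inertiaSubgroupIn ℚ, ∀ c : ℕ, (∀ μ : Qbar, μ ^ P.p = 1 → σ μ = μ ^ c) →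
      KummerEquiv (P.p * M0) P.p (Φ c1 ^ c) (gal σ (Φ c1))) ∧
    (∀ σ ∈ A.inertiaSubgroupIn ℚ, ∃ b : ℕ,
      KummerEquiv (P.p * M0) P.p (Φ c2 * Φ c1 ^ b) (gal σ (Φ c2))) ∧
    (∀ σ ∈ A.inertiaSubgroupIn ℚ, (∀ Q : Pt P, P.p • Q = 0 → σ • Q = Q) →
      KummerEquiv (P.p * M0) P.p (Φ c1) (gal σ (Φ c1)) ∧
      KummerEquiv (P.p * M0) P.p (Φ c2) (gal σ (Φ c2))) ∧
    ¬ TrivAt (P.p * M0) P.p A (Φ c2) := by
  obtain ⟨N⟩ := exists_nodeData P C.hpabc A C.hA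
  obtain ⟨P₁, h0, hp, hx⟩ := exists_e1 N C.hA
  obtain ⟨c2, hc20, hc2x⟩ := exists_integral N C.hA C.card
  set c1 : Gal.Tor P.freyCurve P.p := ⟨P₁, (mem_tors_iff P P₁).mpr hp⟩ with hc1
  have ht1 : TrivAt (P.p * M0) P.p A (Φ c1) := (C.triv_iff c1).mpr (Or.inr hx)
  have hfix : ∀ σ : GQ, (∀ Q : Pt P, P.p • Q = 0 → σ • Q = Q) →
      ∀ x : Gal.Tor P.freyCurve P.p, KummerEquiv (P.p * M0) P.p (Φ x) (gal σ (Φ x)) := by
    intro σ hσ x
    have h1 : σ • x = x := Subtype.ext (hσ x (tors_nsmul P x))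
    have h2 := C.emb.equiv σ x
    rwa [h1] at h2
  refine ⟨c1, c2, (C.deep ht1).1, (C.deep ht1).2, ?_, ?_, ?_, ?_, ?_⟩
  · intro h
    exact h0 (congrArg Subtype.val (C.emb.inj c1 h))
  · intro σ hσ c hc
    exact C.inertia_of_triv ht1 hσ hc
  · intro σ hσ
    have hb : ∃ b : ℕ, σ • c2 = c2 + b • c1 := by
      rcases inertia_sub_mem_E1 N C.hA hσ (tors_nsmul P c2) with h | h
      · refine ⟨0, Subtype.ext ?_⟩
        have : σ • (c2 : Pt P) = c2 := sub_eq_zero.mp h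
        rw [zero_nsmul, add_zero]
        exact this
      · have hp2 : P.p • (σ • (c2 : Pt P) - c2) = 0 := by
          rw [nsmul_sub, nsmul_smul_eq_zero σ (tors_nsmul P c2), tors_nsmul P c2, sub_zero]
        obtain ⟨b, hb⟩ := e1_cyclic N h0 hp hx hp2 h
        refine ⟨b, Subtype.ext ?_⟩
        have : σ • (c2 : Pt P) = c2 + b • P₁ := by rw [← hb]; abel
        exact this
    obtain ⟨b, hb⟩ := hb
    refine ⟨b, ?_⟩
    have h1 := C.emb.equiv σ c2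
    rw [hb] at h1
    exact (((KummerEquiv.refl (Φ c2)).mul (C.emb.map_nsmul b c1).symm).trans
      (C.emb.mul c2 (b • c1)).symm).trans h1
  · intro σ _ hσ
    exact ⟨hfix σ hσ c1, hfix σ hσ c2⟩
  · intro h
    rcases (C.triv_iff c2).mp h with h | h
    · exact hc20 h
    · exact h hc2x

end Ctx

end Fermat.Agent.LP.Top
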